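import Fermat.Agent.S17.E.Defs
import Fermat.Agent.S17.D.D6

/-!
# S17 / Part E : elementary API (no uniformity)

Sections: (a) coordinates `ofCrd`, `cS`, distances in coordinates;  (b) divisors: `tdiv`, `tailDiv`, `lpair`, `hdiv`, rationality;
(c) rational bases and `hW`.
-/

set_option autoImplicit false
set_option linter.unusedSectionVars false
set_option linter.unusedVariables false

open AlgebraicCurve ModularCurve IntermediateField

namespace Fermat.Agent.S17

open FF

variable {N : ℕ} [NeZero N]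

/-! ### (a) coordinates -/

theorem ofCrd_apply (k : ℕ) (a : Fin (mk N k) → Kb) : ofCrd N k a = ∑ i, a i • (bas N k i : FN N) := by
  rw [ofCrd, Fintype.linearCombination_apply]

theorem ofCrd_mem (k : ℕ) (a : Fin (mk N k) → Kb) : ofCrd N k a ∈ Lk N k := by
  rw [ofCrd_apply]; exact sum_bas_mem k a

theorem ofCrd_crd {k : ℕ} {f : FN N} (hf : f ∈ Lk N k) : ofCrd N k (crd N k f) = f := by
  rw [ofCrd_apply]; exact (eq_sum_crd hf).symm

theorem crd_ofCrd (k : ℕ) (a : Fin (mk N k) → Kb) : crd N k (ofCrd N k a) = a := by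
  rw [ofCrd_apply]; exact crd_sum k a

theorem LSp_sub_le_Lk (k : ℕ) {D : Dv N} (hD : 0 ≤ D) : LSp (koo N k - D) ≤ Lk N k := by
  exact LSp_mono (sub_le_self _ hD)

theorem crd_sub {k : ℕ} {f g : FN N} (hf : f ∈ Lk N k) (hg : g ∈ Lk N k) :
    crd N k (f - g) = crd N k f - crd N k g := by
  have h1 : f - g = f + (-1 : Kb) • g := by rw [neg_one_smul, sub_eq_add_neg]
  rw [h1, crd_add hf (Submodule.smul_mem _ _ hg), crd_smul, neg_one_smul, sub_eq_add_neg]

theorem crd_finset_sum {k : ℕ} {κ : Type*} (s : Finset κ) (f : κ → FN N) (hf : ∀ a ∈ s, f a ∈ Lk N k) :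
    crd N k (∑ a ∈ s, f a) = ∑ a ∈ s, crd N k (f a) := by
  classical
  induction s using Finset.induction_on with
  | empty => simpa using crd_zero k
  | insert a s ha ih =>
    rw [Finset.sum_insert ha, Finset.sum_insert ha,
      crd_add (hf a (Finset.mem_insert_self a s))
        (Submodule.sum_mem _ fun i hi => hf i (Finset.mem_insert_of_mem hi)),
      ih fun i hi => hf i (Finset.mem_insert_of_mem hi)]

theorem mem_cS {k : ℕ} {D : Dv N} {a : Fin (mk N k) → Kb} : a ∈ cS N k D ↔ ofCrd N k a ∈ LSp (koo N k - D) :=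
  Iff.rfl

theorem crd_mem_cS {k : ℕ} {D : Dv N} {f : FN N} (hf : f ∈ Lk N k) :
    crd N k f ∈ cS N k D ↔ f ∈ LSp (koo N k - D) := by
  rw [mem_cS, ofCrd_crd hf]

theorem cS_mono (k : ℕ) {D D' : Dv N} (h : D ≤ D') : cS N k D' ≤ cS N k D := by
  exact Submodule.comap_mono (LSp_mono (sub_le_sub_left h _))

theorem cS_zero (k : ℕ) : cS N k 0 = ⊤ := by
  rw [eq_top_iff]
  intro a _
  rw [mem_cS, sub_zero]
  exact ofCrd_mem k a

namespace EBasic

theorem ofCrd_injective (k : ℕ) : Function.Injective (ofCrd N k) := by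
  intro a b h
  rw [← crd_ofCrd k a, h, crd_ofCrd]

end EBasic

/-- span of coordinate vectors -/
theorem span_crd_eq_cS {k : ℕ} {D : Dv N} (hD : 0 ≤ D) {κ : Type*} (x : κ → FN N)
    (hx : Submodule.span Kb (Set.range x) = LSp (koo N k - D)) :
    Submodule.span Kb (Set.range fun a => crd N k (x a)) = cS N k D := by
  have hmem : ∀ a, x a ∈ Lk N k := fun a =>
    LSp_sub_le_Lk k hD (hx ▸ Submodule.subset_span ⟨a, rfl⟩)
  rw [cS, ← hx, ← Submodule.comap_map_eq_of_injective (EBasic.ofCrd_injective k)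
    (Submodule.span Kb (Set.range fun a => crd N k (x a))), Submodule.map_span, ← Set.range_comp]
  congr 3
  funext a
  exact ofCrd_crd (hmem a)

theorem linearIndependent_crd {k : ℕ} {κ : Type*} (x : κ → FN N) (hx : ∀ a, x a ∈ Lk N k) :
    LinearIndependent Kb (fun a => crd N k (x a)) ↔ LinearIndependent Kb x := by
  have h1 : x = ofCrd N k ∘ fun a => crd N k (x a) := by
    funext a
    exact (ofCrd_crd (hx a)).symm
  conv_rhs => rw [h1]
  exact (LinearMap.linearIndependent_iff (ofCrd N k)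
    (LinearMap.ker_eq_bot.2 (EBasic.ofCrd_injective k))).symm

theorem finrank_cS (k : ℕ) {D : Dv N} (hD : 0 ≤ D) : Module.finrank Kb (cS N k D) = ell (koo N k - D) := by
  have h1 : (cS N k D).map (ofCrd N k) = LSp (koo N k - D) := by
    refine Submodule.map_comap_eq_of_le ?_
    intro f hf
    exact ⟨crd N k f, ofCrd_crd (LSp_sub_le_Lk k hD hf)⟩
  rw [ell, ← h1]
  exact (Submodule.equivMapOfInjective (ofCrd N k) (EBasic.ofCrd_injective k) (cS N k D)).finrank_eq

/-- upper bound for a distance in coordinates -/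
theorem distn_crd_le (v : PlQ) {k : ℕ} {D : Dv N} (hD : 0 ≤ D) {y z : FN N} (hy : y ∈ Lk N k)
    (hz : z ∈ LSp (koo N k - D)) : distn v (crd N k y) (cS N k D) ≤ nrm N v k (y - z) := by
  have hz' := LSp_sub_le_Lk k hD hz
  rw [nrm, crd_sub hy hz']
  exact distn_le v _ _ ((crd_mem_cS hz').2 hz)

/-- lower bound for a distance in coordinates -/
theorem le_distn_crd (v : PlQ) {k : ℕ} {D : Dv N} (hD : 0 ≤ D) {y : FN N} (hy : y ∈ Lk N k) {r : ℝ}
    (h : ∀ z ∈ LSp (koo N k - D), r ≤ nrm N v k (y - z)) : r ≤ distn v (crd N k y) (cS N k D) := by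
  refine le_ciInf fun z => ?_
  have h1 := h _ (mem_cS.1 z.2)
  rwa [nrm, crd_sub hy (ofCrd_mem k _), crd_ofCrd] at h1

theorem nrm_nonneg (v : PlQ) (k : ℕ) (f : FN N) : 0 ≤ nrm N v k f := supn_nonneg _ _

theorem nrm_smul (v : PlQ) (k : ℕ) (a : Kb) (f : FN N) : nrm N v k (a • f) = absv v a * nrm N v k f := by
  rw [nrm, crd_smul, supn_smul, nrm]

/-- `|∑_{a ∈ s} f_a| ≤ kap v #s * r` -/
theorem nrm_sum_le (v : PlQ) {k : ℕ} {κ : Type*} (s : Finset κ) (f : κ → FN N) (hf : ∀ a ∈ s, f a ∈ Lk N k)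
    {r : ℝ} (hr : 0 ≤ r) (h : ∀ a ∈ s, nrm N v k (f a) ≤ r) : nrm N v k (∑ a ∈ s, f a) ≤ kap v s.card * r := by
  have hk : 0 ≤ kap v s.card := le_trans zero_le_one (one_le_kap v _)
  rw [nrm, crd_finset_sum s f hf, supn_le_iff v _ (mul_nonneg hk hr)]
  intro i
  rw [Finset.sum_apply]
  exact absv_sum_le v s _ hr fun a ha => (absv_le_supn v _ i).trans (h a ha)

/-! ### (b) divisors

NOTE (helper75): this file now imports Part D.  Already available from there (do NOT restate): `finite_support_lpair D D'` (no hypothesis),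
`hdiv_add hk E E'`, `isRatD_divf`, `hdiv_ge`, `hdiv_level`, `one_le_ptn`, `gpair_*`, `exists_rat_basis`, `exists_rat_of_isPrincipal`, `koo_isRat`. -/

theorem tdiv_nonneg {d : ℕ} (P : Fin d → Pl N) : 0 ≤ tdiv P := by
  exact Finset.sum_nonneg fun j _ => Finsupp.single_nonneg.2 zero_le_one

theorem tdiv_append {d e : ℕ} (P : Fin d → Pl N) (Q : Fin e → Pl N) :
    tdiv (Fin.append P Q) = tdiv P + tdiv Q := by
  unfold tdiv
  rw [Fin.sum_univ_add]
  simp only [Fin.append_left, Fin.append_right]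

theorem tdiv_apply_eq_zero_iff {d : ℕ} (P : Fin d → Pl N) (R : Pl N) : tdiv P R = 0 ↔ ∀ i, P i ≠ R := by
  classical
  unfold tdiv
  rw [Finsupp.finsetSum_apply, Finset.sum_eq_zero_iff_of_nonneg
    (fun j _ => (Finsupp.single_nonneg.2 zero_le_one : (0 : Dv N) ≤ pdiv (P j)) R)]
  simp only [Finset.mem_univ, true_implies, Finsupp.single_apply]
  refine forall_congr' fun i => ?_
  by_cases h : P i = R <;> simp [h]

theorem tailDiv_zero {n : ℕ} (Q : Fin n → Pl N) : tailDiv Q 0 = tdiv Q := by
  unfold tailDiv tdiv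
  simp

theorem tailDiv_self {n : ℕ} (Q : Fin n → Pl N) : tailDiv Q n = 0 := by
  unfold tailDiv
  rw [Finset.filter_false_of_mem (fun i _ => by have := i.2; omega), Finset.sum_empty]

theorem tailDiv_succ {n : ℕ} (Q : Fin n → Pl N) (a : Fin n) :
    tailDiv Q a = tailDiv Q (a + 1) + pdiv (Q a) := by
  classical
  unfold tailDiv
  have h1 : Finset.univ.filter (fun i : Fin n => (a : ℕ) ≤ i.val) =
      insert a (Finset.univ.filter (fun i : Fin n => (a : ℕ) + 1 ≤ i.val)) := by
    ext i
    simp only [Finset.mem_filter, Finset.mem_univ, true_and, Finset.mem_insert, Fin.ext_iff]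
    omega
  rw [h1, Finset.sum_insert (by simp), add_comm]

theorem tailDiv_nonneg {n : ℕ} (Q : Fin n → Pl N) (a : ℕ) : 0 ≤ tailDiv Q a := by
  exact Finset.sum_nonneg fun j _ => Finsupp.single_nonneg.2 zero_le_one

theorem degree_tailDiv {n : ℕ} (Q : Fin n → Pl N) (a : ℕ) : Divisor.degree (tailDiv Q a) = ((n - a : ℕ) : ℤ) := by
  classical
  unfold tailDiv
  rw [map_sum]
  simp only [LBasic.degree_pdiv, Finset.sum_const, nsmul_eq_mul, mul_one]
  congr 1
  by_cases h : a < n
  · have h1 : Finset.univ.filter (fun i : Fin n => a ≤ i.val) = Finset.Ici (⟨a, h⟩ : Fin n) := by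
      ext i
      simp [Fin.le_def]
    rw [h1, Fin.card_Ici]
  · rw [Finset.filter_false_of_mem (fun i _ => by have := i.2; omega), Finset.card_empty]
    omega

/-- bilinearity of the local pairing -/
theorem lpair_tdiv (v : PlQ) {d e : ℕ} (P : Fin d → Pl N) (Q : Fin e → Pl N) :
    lpair N v (tdiv P) (tdiv Q) = ∑ i, ∑ j, (- Real.log (dl N v (P i) (Q j))) := by
  rw [tdiv, D3aux.lpair_finset_sum]
  refine Finset.sum_congr rfl fun i _ => ?_
  rw [lpair_comm, tdiv, D3aux.lpair_finset_sum]
  refine Finset.sum_congr rfl fun j _ => ?_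
  rw [D3aux.lpair_pdiv, Finsupp.sum_single_index (by simp), dl_comm]
  simp

theorem finite_support_hdiv {k : ℕ} (hk : rc Kb (FN N) + 1 ≤ k) (E : Dv N) :
    (Function.support fun v : PlQ => E.sum fun P a => (a : ℝ) * Real.log (ptn N v k P)).Finite := by
  exact GlobalA.finite_support_hdiv hk E

theorem isRatD_add {D D' : Dv N} (h : IsRatD N D) (h' : IsRatD N D') : IsRatD N (D + D') := by
  exact Pairing.isRatD_add h h'

theorem isRatD_sub {D D' : Dv N} (h : IsRatD N D) (h' : IsRatD N D') : IsRatD N (D - D') := by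
  exact Pairing.isRatD_sub h h'

/-- `div (σ f) = σ (div f)` -/
theorem divf_gal (σ : GQ) (f : FN N) :
    divf (K := Kb) (gal Kb N σ • f) = gal Kb N σ • divf (K := Kb) f := by
  exact (gal_smul_divf σ f).symm

theorem isRatD_div0 {f : FN N} (hf : IsRatF N f) (k : ℕ) : IsRatD N (div0 N k f) := by
  exact D6aux.isRatD_div0 k hf

theorem div0_nonneg {k : ℕ} {f : FN N} (hf : f ∈ Lk N k) : 0 ≤ div0 N k f := by
  intro P
  rcases (mem_LSp.1 hf) with rfl | h
  · have h1 : (0 : Dv N) ≤ koo N k := by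
      have := koo_mono (N := N) (Nat.zero_le k)
      simpa [koo] using this
    have := h1 P
    simpa [div0] using this
  · simpa [div0] using h P

theorem degree_div0 (k : ℕ) (f : FN N) : Divisor.degree (div0 N k f) = k := by
  exact D6aux.degree_div0 k f

theorem isRatF_mul {f g : FN N} (hf : IsRatF N f) (hg : IsRatF N g) : IsRatF N (f * g) := by
  exact Pairing.isRatF_mul hf hg

/-! ### (c) rational bases, `hW` -/

/-- echelon trick -/
theorem exists_isRatBasis (k : ℕ) {E : Dv N} (hE : IsRatD N E) :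
    ∃ x : Fin (ell (koo N k - E)) → FN N, IsRatBasis N k E x := by
  obtain ⟨b, hb⟩ := exists_rat_basis (Pairing.isRatD_sub (koo_isRat N k) hE)
  refine ⟨fun a => (b a : FN N), hb, ?_, ?_⟩
  · exact b.linearIndependent.map' (LSp (koo N k - E)).subtype (Submodule.ker_subtype _)
  · have h1 : (Set.range fun a => (b a : FN N)) = (LSp (koo N k - E)).subtype '' Set.range b := by
      rw [← Set.range_comp]; rfl
    rw [h1, ← Submodule.map_span, b.span_eq, Submodule.map_top, Submodule.range_subtype]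

theorem IsRatBasis.card_eq {k : ℕ} {E : Dv N} {w : ℕ} {x : Fin w → FN N} (h : IsRatBasis N k E x) :
    w = ell (koo N k - E) := by
  have := finrank_span_eq_card h.li
  rw [h.span, Fintype.card_fin] at this
  exact this.symm

theorem IsRatBasis.mem {k : ℕ} {E : Dv N} {w : ℕ} {x : Fin w → FN N} (h : IsRatBasis N k E x) (a : Fin w) :
    x a ∈ LSp (koo N k - E) := by
  rw [← h.span]; exact Submodule.subset_span ⟨a, rfl⟩

/-- two rational bases of the same space differ by a rational invertible matrix -/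
theorem IsRatBasis.exists_matrix {k : ℕ} {E : Dv N} {w : ℕ} {x x' : Fin w → FN N}
    (h : IsRatBasis N k E x) (h' : IsRatBasis N k E x') :
    ∃ A : Matrix (Fin w) (Fin w) ℚ, A.det ≠ 0 ∧ ∀ a, x' a = ∑ b, (A a b : Kb) • x b := by
  have h1 : ∀ a, ∃ c : Fin w → Kb, ∑ b, c b • x b = x' a := fun a =>
    (Submodule.mem_span_range_iff_exists_fun Kb).1 (by rw [h.span]; exact h'.mem a)
  choose c hc using h1
  have h2 : ∀ a b, ∃ q : ℚ, (q : Kb) = c a b := by
    intro a b
    refine exists_rat_of_fixed fun σ => ?_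
    have e1 : ∑ b, σ (c a b) • x b = x' a := by
      have := congrArg (fun f => gal Kb N σ • f) (hc a)
      simp only [Finset.smul_sum, gal_smul_smul, h.rat _ σ, h'.rat _ σ] at this
      exact this
    have e2 : ∑ b, (σ (c a b) - c a b) • x b = 0 := by
      simp only [sub_smul, Finset.sum_sub_distrib, e1, hc a, sub_self]
    exact sub_eq_zero.1 (Fintype.linearIndependent_iff.1 h.li _ e2 b)
  choose A hA using h2
  have hx' : ∀ a, x' a = ∑ b, ((A a b : ℚ) : Kb) • x b := by
    intro a
    simp only [hA, hc a]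
  refine ⟨Matrix.of A, ?_, hx'⟩
  intro hdet
  obtain ⟨u, hu0, hu⟩ := Matrix.exists_vecMul_eq_zero_iff.2 hdet
  apply hu0
  have e3 : ∑ a, ((u a : ℚ) : Kb) • x' a = 0 := by
    simp only [hx', Finset.smul_sum, smul_smul]
    rw [Finset.sum_comm]
    refine Finset.sum_eq_zero fun b _ => ?_
    rw [← Finset.sum_smul]
    have := congrFun hu b
    simp only [Matrix.vecMul, dotProduct, Matrix.of_apply, Pi.zero_apply] at this
    have h3 : ∑ a, ((u a : ℚ) : Kb) * ((A a b : ℚ) : Kb) = ((∑ a, u a * A a b : ℚ) : Kb) := by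
      push_cast; rfl
    rw [h3, this]
    simp
  funext a
  have := Fintype.linearIndependent_iff.1 h'.li _ e3 a
  exact_mod_cast this

/-- `hW` does not depend on the rational basis (`hwedge_mul_rat`) -/
theorem hW_eq {k : ℕ} {E : Dv N} (hE : 0 ≤ E) {w : ℕ} {x : Fin w → FN N} (h : IsRatBasis N k E x) :
    hwedge (fun a => crd N k (x a)) = hW N k E := by
  have key : ∀ (w' : ℕ) (x' : Fin w' → FN N), IsRatBasis N k E x' →
      hwedge (fun a => crd N k (x a)) = hwedge (fun a => crd N k (x' a)) := by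
    intro w' x' h'
    obtain rfl : w' = w := h'.card_eq.trans h.card_eq.symm
    obtain ⟨A, hA, hx⟩ := h'.exists_matrix h
    have hmem : ∀ a, x' a ∈ Lk N k := fun a => LSp_sub_le_Lk k hE (h'.mem a)
    have h1 : (fun a => crd N k (x a)) = fun a => ∑ b, (A a b : Kb) • crd N k (x' b) := by
      funext a
      rw [hx a, crd_finset_sum _ _ fun b _ => Submodule.smul_mem _ _ (hmem b)]
      simp only [crd_smul]
    rw [h1]
    exact hwedge_mul_rat A hA _ ((linearIndependent_crd x' hmem).2 h'.li)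
  have hex : ∃ (w : ℕ) (x : Fin w → FN N), IsRatBasis N k E x := ⟨w, x, h⟩
  rw [hW, dif_pos hex]
  exact key _ _ hex.choose_spec.choose_spec

/-- compatible rational bases (`exists_append_basis` applied to `t` and a rational basis `β` of the bigger space) -/
theorem exists_isRatBasis_append {k : ℕ} {E E' : Dv N} (hE : IsRatD N E) (hEE' : E ≤ E') {w n : ℕ}
    {t : Fin w → FN N} (ht : IsRatBasis N k E' t) (hdim : ell (koo N k - E) = w + n) :
    ∃ s : Fin n → FN N, IsRatBasis N k E (Fin.append t s) := by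
  obtain ⟨β, hβ⟩ := exists_isRatBasis k hE
  obtain ⟨g, hg1, hg2⟩ := exists_append_basis t ht.li β (LSp (koo N k - E)) hβ.span
    (fun a => LSp_mono (sub_le_sub_left hEE' _) (ht.mem a)) hdim
  refine ⟨β ∘ g, ?_, hg1, hg2⟩
  intro a
  refine Fin.addCases (fun i => ?_) (fun j => ?_) a
  · rw [Fin.append_left]; exact ht.rat i
  · rw [Fin.append_right]; exact hβ.rat (g j)

namespace EBasic

theorem crd_bas (k : ℕ) (a : Fin (mk N k)) : crd N k (bas N k a : FN N) = Pi.single a 1 := by
  classical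
  have := crd_sum (N := N) k (Pi.single a 1)
  rw [← this]
  congr 1
  rw [Finset.sum_eq_single a (fun b _ hb => by rw [Pi.single_eq_of_ne hb, zero_smul]) (by simp),
    Pi.single_eq_same, one_smul]

theorem isRatBasis_bas (k : ℕ) : IsRatBasis N k 0 (fun a => (bas N k a : FN N)) := by
  refine ⟨bas_isRat N k, ?_, ?_⟩
  · exact (bas N k).linearIndependent.map' (Lk N k).subtype (Submodule.ker_subtype _)
  · have h1 : (Set.range fun a => (bas N k a : FN N)) = (Lk N k).subtype '' Set.range (bas N k) := by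
      rw [← Set.range_comp]; rfl
    rw [h1, ← Submodule.map_span, (bas N k).span_eq, Submodule.map_top, Submodule.range_subtype,
      sub_zero, Lk]

end EBasic

/-- a full rational basis of `L_k` has height `0` (product formula for the determinant) -/
theorem hwedge_eq_zero_of_full {k : ℕ} {w : ℕ} {x : Fin w → FN N} (h : IsRatBasis N k 0 x) :
    hwedge (fun a => crd N k (x a)) = 0 := by
  classical
  rw [hW_eq le_rfl h, ← hW_eq le_rfl (EBasic.isRatBasis_bas k), hwedge]
  have h1 : ∀ v : PlQ, wedgen v (fun a => crd N k (bas N k a : FN N)) = 1 := by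
    intro v
    rw [wedgen_eq_det v (Equiv.refl _)]
    have : (Matrix.of fun a b => crd N k (bas N k a : FN N) ((Equiv.refl _) b)) =
        (1 : Matrix (Fin (mk N k)) (Fin (mk N k)) Kb) := by
      ext a b
      rw [Matrix.of_apply, EBasic.crd_bas, Equiv.refl_apply, Matrix.one_apply, Pi.single_apply]
      by_cases hab : a = b
      · simp [hab]
      · rw [if_neg hab, if_neg (Ne.symm hab)]
    rw [this, Matrix.det_one, map_one]
  simp only [h1, Real.log_one, finsum_zero]

end Fermat.Agent.S17
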