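import Fermat.Agent.S17.E.Basic

/-!
# S17 / E3-Chain : the adapted family (pure algebra: Riemann's theorem, no norms)

`P, Q : Fin n → Pl`, `P_i ≠ Q_j`.  `B_a := tailDiv Q a = ∑_{i ≥ a} Q_i`, `U_a := L(μ∞ - ∑P - B_a)`, `A_a := L(μ∞ - B_a)`.
`U_0 = L(μ∞-∑P-∑Q) ⊂ U_1 ⊂ ... ⊂ U_n = L(μ∞-∑P)`, `A_0 = L(μ∞-∑Q) ⊂ ... ⊂ A_n = L_μ`, all steps of codimension one
(`ell_sub_pdiv`, degrees `≥ rc + 1` by `BigLevel`).  Choose `y_a ∈ U_{a+1} \ U_a`.  Then `U_{a+1} = U_a ⊕ K y_a`, and `y_a ∉ A_a`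
(`mem_LSp_inter'`: `U_{a+1} ∩ A_a = U_a` because `Q_a ∉ P`), so `A_{a+1} = A_a ⊕ K y_a`.
-/

set_option autoImplicit false

open AlgebraicCurve ModularCurve IntermediateField

namespace Fermat.Agent.S17

open FF

variable {N : ℕ} [NeZero N]

/-- dimension of `L(μ∞ - D)` for `D` effective of degree `≤ 2n` -/
theorem ell_koo_sub {n μ : ℕ} (hμ : BigLevel N n μ) {D : Dv N} {d : ℕ} (hd : Divisor.degree D = d)
    (hdn : d ≤ 2 * n) : ell (koo N μ - D) + d = mk N μ := by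
  have hrc : rc Kb (FN N) = ((rc Kb (FN N)).toNat : ℤ) := (Int.toNat_of_nonneg rc_nonneg).symm
  have hmu0 : 2 ≤ mu0 N := by unfold mu0; omega
  have hμ' : (2 * n + 1) * mu0 N + (rc Kb (FN N)).toNat ≤ μ := hμ
  have h0 : (2 * n + 1) * 2 ≤ (2 * n + 1) * mu0 N := Nat.mul_le_mul_left _ hmu0
  have h1 := riemann_eq (D := koo N μ - D) (by rw [map_sub, degree_koo, hd]; omega)
  have h2 := riemann_eq (D := koo N μ) (by rw [degree_koo]; omega)
  rw [map_sub, degree_koo, hd] at h1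
  rw [degree_koo] at h2
  have h3 : mk N μ = ell (koo N μ) := rfl
  omega

/-- a subspace of codimension one plus a vector outside -/
theorem cS_eq_sup_span {n μ : ℕ} (hμ : BigLevel N n μ) {D : Dv N} (hD : 0 ≤ D) {d : ℕ}
    (hd : Divisor.degree D = d) (hdn : d + 1 ≤ 2 * n) (R : Pl N) {y : FN N}
    (hy : y ∈ LSp (koo N μ - D)) (hy' : y ∉ LSp (koo N μ - (D + pdiv R))) :
    cS N μ D = cS N μ (D + pdiv R) ⊔ Submodule.span Kb {crd N μ y} := by
  have hR : (0 : Dv N) ≤ pdiv R := Finsupp.single_nonneg.mpr zero_le_one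
  have hDR : 0 ≤ D + pdiv R := add_nonneg hD hR
  have hyL : y ∈ Lk N μ := LSp_sub_le_Lk μ hD hy
  have e1 := ell_koo_sub hμ hd (by omega)
  have e2 := ell_koo_sub (d := d + 1) hμ (D := D + pdiv R)
    (by rw [map_add, hd, FF.LBasic.degree_pdiv]; push_cast; ring) hdn
  have f1 := finrank_cS (N := N) μ hD
  have f2 := finrank_cS (N := N) μ hDR
  have hle : cS N μ (D + pdiv R) ⊔ Submodule.span Kb {crd N μ y} ≤ cS N μ D := by
    refine sup_le (cS_mono μ (le_add_of_nonneg_right hR)) ?_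
    rw [Submodule.span_singleton_le_iff_mem]
    exact (crd_mem_cS hyL).mpr hy
  have hlt : cS N μ (D + pdiv R) < cS N μ (D + pdiv R) ⊔ Submodule.span Kb {crd N μ y} := by
    refine lt_of_le_of_ne le_sup_left ?_
    intro h
    apply hy'
    rw [← crd_mem_cS hyL, h]
    exact Submodule.mem_sup_right (Submodule.mem_span_singleton_self _)
  have hfl := Submodule.finrank_lt_finrank_of_lt hlt
  exact (Submodule.eq_of_le_of_finrank_le hle (by omega)).symm

/-- `L(D - ∑P - B) ∩ L(D - B - Q) = L(D - ∑P - B - Q)` if `Q ∉ P`. -/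
theorem mem_LSp_inter' {n : ℕ} {k : ℕ} (P : Fin n → Pl N) (B : Dv N) (Q : Pl N) (hQ : ∀ i, P i ≠ Q)
    {f : FN N} (h1 : f ∈ LSp (koo N k - (tdiv P + B))) (h2 : f ∈ LSp (koo N k - (B + pdiv Q))) :
    f ∈ LSp (koo N k - (tdiv P + B + pdiv Q)) := by
  rw [mem_LSp] at h1 h2 ⊢
  by_cases hf : f = 0
  · exact Or.inl hf
  right
  intro v
  have h1 := h1.resolve_left hf v
  have h2 := h2.resolve_left hf v
  by_cases hv : v = Q
  · subst hv
    have h0 : tdiv P v = 0 := (tdiv_apply_eq_zero_iff P v).mpr hQ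
    simp only [Finsupp.coe_sub, Finsupp.coe_add, Pi.sub_apply, Pi.add_apply, h0] at h2 ⊢
    omega
  · have h0 : pdiv Q v = 0 := Finsupp.single_eq_of_ne (by exact hv)
    simp only [Finsupp.coe_sub, Finsupp.coe_add, Pi.sub_apply, Pi.add_apply, h0] at h1 ⊢
    omega

theorem exists_adapted {n μ : ℕ} (hμ : BigLevel N n μ) (P Q : Fin n → Pl N) (hPQ : ∀ i j, P i ≠ Q j) :
    ∃ y : Fin n → FN N,
      (∀ a : Fin n, y a ∈ LSp (koo N μ - (tdiv P + tailDiv Q (a + 1)))) ∧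
      (∀ a : Fin n, cS N μ (tdiv P + tailDiv Q (a + 1)) =
        cS N μ (tdiv P + tailDiv Q a) ⊔ Submodule.span Kb {crd N μ (y a)}) ∧
      (∀ a : Fin n, cS N μ (tailDiv Q (a + 1)) =
        cS N μ (tailDiv Q a) ⊔ Submodule.span Kb {crd N μ (y a)}) := by
  have hP0 : (0 : Dv N) ≤ tdiv P := tdiv_nonneg P
  have hdeg : ∀ a : Fin n, Divisor.degree (tdiv P + tailDiv Q (a + 1))
      = ((n + (n - (a + 1)) : ℕ) : ℤ) := by
    intro a
    rw [map_add, FF.degree_tdiv, degree_tailDiv]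
    push_cast
    ring
  have hex : ∀ a : Fin n, ∃ y : FN N, y ∈ LSp (koo N μ - (tdiv P + tailDiv Q (a + 1))) ∧
      y ∉ LSp (koo N μ - (tdiv P + tailDiv Q (a + 1) + pdiv (Q a))) := by
    intro a
    have ha := a.2
    have e1 := ell_koo_sub hμ (hdeg a) (by omega)
    have e2 := ell_koo_sub (d := n + (n - (a + 1)) + 1) hμ
      (D := tdiv P + tailDiv Q (a + 1) + pdiv (Q a))
      (by rw [map_add, hdeg a, FF.LBasic.degree_pdiv]; push_cast; ring) (by omega)
    by_contra hcon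
    push Not at hcon
    have hle : LSp (koo N μ - (tdiv P + tailDiv Q (a + 1)))
        ≤ LSp (koo N μ - (tdiv P + tailDiv Q (a + 1) + pdiv (Q a))) := fun y hy => hcon y hy
    have : ell (koo N μ - (tdiv P + tailDiv Q (a + 1)))
        ≤ ell (koo N μ - (tdiv P + tailDiv Q (a + 1) + pdiv (Q a))) := Submodule.finrank_mono hle
    omega
  choose y hy hy' using hex
  refine ⟨y, hy, fun a => ?_, fun a => ?_⟩
  · have ha := a.2
    have h := cS_eq_sup_span hμ (add_nonneg hP0 (tailDiv_nonneg Q (a + 1))) (hdeg a) (by omega)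
      (Q a) (hy a) (hy' a)
    rw [add_assoc, ← tailDiv_succ] at h
    exact h
  · have ha := a.2
    have hya : y a ∈ LSp (koo N μ - tailDiv Q (a + 1)) := by
      refine LSp_mono ?_ (hy a)
      exact sub_le_sub_left (le_add_of_nonneg_left hP0) _
    have h := cS_eq_sup_span hμ (tailDiv_nonneg Q (a + 1)) (degree_tailDiv Q (a + 1)) (by omega)
      (Q a) hya (fun hcon => hy' a (mem_LSp_inter' P _ (Q a) (fun i => hPQ i a) (hy a) hcon))
    rw [← tailDiv_succ] at h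
    exact h

end Fermat.Agent.S17
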