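import Fermat.Agent.S17.E.Basic
import Fermat.Agent.S17.Curve.U4

/-!
# S17 / E3-BD : bounded decomposition  `L(μ∞ - B) = L_{μ₀}^n · L((μ - nμ₀)∞ - B)`

`μ = (n + j) μ₀ + k₀`, `B = ∑ Qs_i` (`j` points).  Every `t ∈ L(μ∞ - B)` is
`∑_{β,γ} a_{β,γ} (∏_{i<n} b_{β i}) * fam j k₀ Qs γ` with `|a| ∏ |pt Qs_i| ≤ c_v |t|`.

PROOF.  `U4` with `d = j` and `k₀' = n μ₀ + k₀` (rewrite the level with `ring`-equalities of naturals:
`(n + j) * μ₀ + k₀ = j * μ₀ + (n * μ₀ + k₀)`), then expand every `bas (n μ₀ + k₀) e` as a FIXED combination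
`∑_{β,i} κ(e,β,i) (∏ b_β) * bas k₀ i` (`exists_struct`), finitely many constants `κ` (`exists_CF_ge`, `ULemma.exists_CF_ge_finset`),
`absv_sum_le`.
-/

set_option autoImplicit false

open AlgebraicCurve ModularCurve IntermediateField

namespace Fermat.Agent.S17

open FF

variable {N : ℕ} [NeZero N]

/-- the monomial `∏_{i<n} b_{β i} ∈ L_{n μ₀}` -/
noncomputable def monoB (N : ℕ) [NeZero N] {n : ℕ} (β : Fin n → Fin (mk N (mu0 N))) : FN N :=
  ∏ i, (bas N (mu0 N) (β i) : FN N)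

namespace Decomp

theorem ev_one_zero (Q : Pl N) : ev N 0 Q (1 : FN N) = 1 := by
  unfold ev
  split_ifs with h
  · simp
  · exact val_one Q

end Decomp

/-- evaluation of a product of `n` sections of `O(μ₀∞)` -/
theorem ev_prod {n : ℕ} (Q : Pl N) (f : Fin n → FN N) (hf : ∀ i, f i ∈ Lk N (mu0 N)) :
    (∏ i, f i) ∈ Lk N (n * mu0 N) ∧ ev N (n * mu0 N) Q (∏ i, f i) = ∏ i, ev N (mu0 N) Q (f i) := by
  induction n with
  | zero =>
    simp only [Finset.univ_eq_empty, Finset.prod_empty, Nat.zero_mul]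
    exact ⟨one_mem_Lk 0, Decomp.ev_one_zero Q⟩
  | succ n ih =>
    obtain ⟨h1, h2⟩ := ih (fun i => f i.succ) (fun i => hf i.succ)
    have e : (n + 1) * mu0 N = mu0 N + n * mu0 N := by ring
    rw [e, Fin.prod_univ_succ, Fin.prod_univ_succ]
    exact ⟨mul_mem_Lk (hf 0) h1, by rw [ev_mul Q (hf 0) h1, h2]⟩

theorem monoB_mem {n : ℕ} (β : Fin n → Fin (mk N (mu0 N))) : monoB N β ∈ Lk N (n * mu0 N) :=
  (ev_prod (oo N) (fun i => (bas N (mu0 N) (β i) : FN N)) (fun i => (bas N (mu0 N) (β i)).2)).1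

namespace Decomp

open scoped Pointwise

theorem range_mono_succ (n k0 : ℕ) :
    Set.range (fun p : (Fin (n + 1) → Fin (mk N (mu0 N))) × Fin (mk N k0) =>
        monoB N p.1 * (bas N k0 p.2 : FN N)) =
      Set.range (fun i => (bas N (mu0 N) i : FN N)) *
        Set.range (fun p : (Fin n → Fin (mk N (mu0 N))) × Fin (mk N k0) =>
          monoB N p.1 * (bas N k0 p.2 : FN N)) := by
  ext f
  constructor
  · rintro ⟨p, rfl⟩
    refine Set.mem_mul.mpr ⟨_, ⟨p.1 0, rfl⟩, _, ⟨(fun j => p.1 j.succ, p.2), rfl⟩, ?_⟩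
    simp only [monoB, Fin.prod_univ_succ, mul_assoc]
  · intro hf
    obtain ⟨_, ⟨i, rfl⟩, _, ⟨p, rfl⟩, rfl⟩ := Set.mem_mul.mp hf
    refine ⟨(Fin.cons i p.1, p.2), ?_⟩
    simp only [monoB, Fin.prod_univ_succ, Fin.cons_zero, Fin.cons_succ, mul_assoc]

theorem span_mono (n : ℕ) {k0 : ℕ} (hk0 : rc Kb (FN N) + mu0 N ≤ k0) :
    Submodule.span Kb (Set.range (fun p : (Fin n → Fin (mk N (mu0 N))) × Fin (mk N k0) =>
        monoB N p.1 * (bas N k0 p.2 : FN N))) = Lk N (n * mu0 N + k0) := by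
  induction n with
  | zero =>
    have h1 : Set.range (fun p : (Fin 0 → Fin (mk N (mu0 N))) × Fin (mk N k0) =>
        monoB N p.1 * (bas N k0 p.2 : FN N)) = Set.range fun i => (bas N k0 i : FN N) := by
      ext f
      constructor
      · rintro ⟨p, rfl⟩
        exact ⟨p.2, by simp [monoB]⟩
      · rintro ⟨i, rfl⟩
        exact ⟨(fun j => j.elim0, i), by simp [monoB]⟩
    rw [h1, SpanFam.span_bas]
    simp
  | succ n ih =>
    have hmu := rc_add_two_le_mu0 (N := N)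
    have hrc := rc_nonneg (K := Kb) (F := FN N)
    rw [range_mono_succ, ← Submodule.span_mul_span, SpanFam.span_bas, ih,
      Lk_mul_Lk (by omega) (by push_cast; nlinarith [Int.natCast_nonneg n, Int.natCast_nonneg (mu0 N)])]
    congr 1
    ring

end Decomp

/-- `L_{μ₀}^n · L_{k₀} = L_{n μ₀ + k₀}` in terms of bases (induction on `n` with `Lk_mul_Lk`). -/
theorem exists_struct (n : ℕ) {k0 : ℕ} (hk0 : rc Kb (FN N) + mu0 N ≤ k0) (e : Fin (mk N (n * mu0 N + k0))) :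
    ∃ κ : (Fin n → Fin (mk N (mu0 N))) × Fin (mk N k0) → Kb,
      (bas N (n * mu0 N + k0) e : FN N) = ∑ p, κ p • (monoB N p.1 * (bas N k0 p.2 : FN N)) := by
  have h : (bas N (n * mu0 N + k0) e : FN N) ∈ Submodule.span Kb
      (Set.range (fun p : (Fin n → Fin (mk N (mu0 N))) × Fin (mk N k0) =>
        monoB N p.1 * (bas N k0 p.2 : FN N))) := by
    rw [Decomp.span_mono n hk0]
    exact (bas N (n * mu0 N + k0) e).2
  obtain ⟨κ, hκ⟩ := (Submodule.mem_span_range_iff_exists_fun Kb).mp h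
  exact ⟨κ, hκ.symm⟩

namespace Decomp

/-- a fixed finite family of vectors is bounded by a constant family -/
theorem exists_CF_supn_le {κ ι : Type*} [Fintype κ] [Fintype ι] (t : κ → ι → Kb) :
    ∃ c : CF, ∀ v k, supn v (t k) ≤ c v := by
  classical
  choose c hc using fun p : κ × ι => exists_CF_ge (t p.1 p.2)
  obtain ⟨C, hC⟩ := ULemma.exists_CF_ge_finset Finset.univ c
  refine ⟨C, fun v k => (supn_le_iff v (t k) (C.pos v).le).mpr fun i => ?_⟩
  exact (hc (k, i) v).trans (hC (k, i) (Finset.mem_univ _) v)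

theorem sec_mem (P : Pl N) (ik : Fin (mk N (mu0 N)) × Fin (mk N (mu0 N))) :
    sec N P ik ∈ LSp (koo N (mu0 N) - pdiv P) := by
  rw [← span_sec P]
  exact Submodule.subset_span ⟨ik, rfl⟩

theorem prod_sec_mem (j : ℕ) (Qs : Fin j → Pl N)
    (g : Fin j → Fin (mk N (mu0 N)) × Fin (mk N (mu0 N))) :
    (∏ i, sec N (Qs i) (g i)) ∈ LSp (koo N (j * mu0 N) - tdiv Qs) := by
  induction j with
  | zero =>
    have h := one_mem_Lk (N := N) 0
    simpa [tdiv, Lk] using h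
  | succ j ih =>
    have h1 := mul_mem_LSp (sec_mem (Qs 0) (g 0)) (ih (fun i => Qs i.succ) (fun i => g i.succ))
    rw [Fin.prod_univ_succ, SpanFam.tdiv_succ, show (j + 1) * mu0 N = mu0 N + j * mu0 N by ring,
      koo_add]
    convert h1 using 2
    abel

end Decomp

/-- **BD.** -/
theorem BD (n j : ℕ) {k0 : ℕ} (hk0 : rc Kb (FN N) + mu0 N ≤ k0) : ∃ c : CF, ∀ v, ∀ Qs : Fin j → Pl N,
    ∀ t ∈ LSp (koo N ((n + j) * mu0 N + k0) - tdiv Qs),
      ∃ a : (Fin n → Fin (mk N (mu0 N))) × Gam N j k0 → Kb,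
        t = ∑ p, a p • (monoB N p.1 * fam j k0 Qs p.2) ∧
        supn v a * ∏ i, ptn N v (mu0 N) (Qs i) ≤ c v * nrm N v ((n + j) * mu0 N + k0) t := by
  have e : (n + j) * mu0 N + k0 = j * mu0 N + (n * mu0 N + k0) := by ring
  rw [e]
  have hk0' : rc Kb (FN N) + mu0 N ≤ ((n * mu0 N + k0 : ℕ) : ℤ) := by
    push_cast
    nlinarith [Int.natCast_nonneg n, Int.natCast_nonneg (mu0 N)]
  obtain ⟨c1, hc1⟩ := U4 (N := N) j hk0'
  choose κ hκ using exists_struct (N := N) n hk0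
  obtain ⟨c2, hc2⟩ := Decomp.exists_CF_supn_le κ
  refine ⟨CF.ofNat (mk N (n * mu0 N + k0)) * c2 * c1, fun v Qs t ht => ?_⟩
  obtain ⟨a', ha', hb'⟩ := hc1 v Qs t ht
  refine ⟨fun p => ∑ e, a' (p.2.1, e) * κ e (p.1, p.2.2), ?_, ?_⟩
  · rw [ha']
    simp only [Fintype.sum_prod_type, famx, hκ, Finset.mul_sum, Finset.smul_sum, Finset.sum_smul]
    rw [Finset.sum_comm (s := (Finset.univ : Finset (Fin n → Fin (mk N (mu0 N)))))]
    refine Finset.sum_congr rfl fun g _ => ?_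
    rw [Finset.sum_comm]
    refine Finset.sum_congr rfl fun β _ => ?_
    rw [Finset.sum_comm]
    refine Finset.sum_congr rfl fun i _ => Finset.sum_congr rfl fun e _ => ?_
    rw [mul_smul_comm, smul_smul]
    congr 1
    ring
  · have hP : 0 ≤ ∏ i, ptn N v (mu0 N) (Qs i) := Finset.prod_nonneg fun i _ => supn_nonneg _ _
    have hr : 0 ≤ supn v a' * c2 v := mul_nonneg (supn_nonneg _ _) (c2.pos v).le
    have hk : 0 ≤ kap v (mk N (n * mu0 N + k0)) :=
      ((CF.ofNat (mk N (n * mu0 N + k0))).pos v).le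
    have h1 : supn v (fun p : (Fin n → Fin (mk N (mu0 N))) × Gam N j k0 =>
        ∑ e, a' (p.2.1, e) * κ e (p.1, p.2.2)) ≤
        kap v (mk N (n * mu0 N + k0)) * (supn v a' * c2 v) := by
      refine (supn_le_iff v _ (mul_nonneg hk hr)).mpr fun p => ?_
      have := absv_sum_le v Finset.univ (fun e => a' (p.2.1, e) * κ e (p.1, p.2.2)) hr
        (fun e _ => by
          rw [map_mul]
          exact mul_le_mul (absv_le_supn v a' _)
            ((absv_le_supn v (κ e) _).trans (hc2 v e)) ((absv v).nonneg _) (supn_nonneg _ _))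
      simpa using this
    calc supn v (fun p : (Fin n → Fin (mk N (mu0 N))) × Gam N j k0 =>
          ∑ e, a' (p.2.1, e) * κ e (p.1, p.2.2)) * ∏ i, ptn N v (mu0 N) (Qs i)
        ≤ kap v (mk N (n * mu0 N + k0)) * (supn v a' * c2 v) * ∏ i, ptn N v (mu0 N) (Qs i) :=
          mul_le_mul_of_nonneg_right h1 hP
      _ = kap v (mk N (n * mu0 N + k0)) * c2 v * (supn v a' * ∏ i, ptn N v (mu0 N) (Qs i)) := by ring
      _ ≤ kap v (mk N (n * mu0 N + k0)) * c2 v *
            (c1 v * nrm N v (j * mu0 N + (n * mu0 N + k0)) t) :=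
          mul_le_mul_of_nonneg_left hb' (mul_nonneg hk (c2.pos v).le)
      _ = (CF.ofNat (mk N (n * mu0 N + k0)) * c2 * c1) v *
            nrm N v (j * mu0 N + (n * mu0 N + k0)) t := by
          simp only [CF.mul_apply]
          rw [show (CF.ofNat (mk N (n * mu0 N + k0))) v = kap v (mk N (n * mu0 N + k0)) from rfl]
          ring

/-- splitting the family of `U4` for an appended tuple -/
theorem fam_append (n j k0 : ℕ) (P : Fin n → Pl N) (Qs : Fin j → Pl N) (γ : Gam N (n + j) k0) :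
    fam (n + j) k0 (Fin.append P Qs) γ =
      (∏ i : Fin n, sec N (P i) (γ.1 (Fin.castAdd j i))) *
        fam j k0 Qs (fun i => γ.1 (Fin.natAdd n i), γ.2) := by
  simp only [famx, Fin.prod_univ_add, Fin.append_left, Fin.append_right, mul_assoc]

theorem fam_mem (j k0 : ℕ) (Qs : Fin j → Pl N) (γ : Gam N j k0) :
    fam j k0 Qs γ ∈ LSp (koo N (j * mu0 N + k0) - tdiv Qs) := by
  have h1 := mul_mem_LSp (Decomp.prod_sec_mem j Qs γ.1) (bas N k0 γ.2).2
  have e : koo N (j * mu0 N + k0) - tdiv Qs = koo N (j * mu0 N) - tdiv Qs + koo N k0 := by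
    rw [koo_add]; abel
  rw [e]
  exact h1

/-- trivial upper bound: `|(∏ b_β) * fam j k₀ Qs γ| ≤ c_v ∏ |pt Qs_i|` -/
theorem U0_monoB_fam (n j k0 : ℕ) : ∃ c : CF, ∀ v, ∀ Qs : Fin j → Pl N,
    ∀ (β : Fin n → Fin (mk N (mu0 N))) (γ : Gam N j k0),
      nrm N v ((n + j) * mu0 N + k0) (monoB N β * fam j k0 Qs γ) ≤ c v * ∏ i, ptn N v (mu0 N) (Qs i) := by
  have e : (n + j) * mu0 N + k0 = n * mu0 N + (j * mu0 N + k0) := by ring
  rw [e]
  obtain ⟨c1, hc1⟩ := U0_mul (N := N) (n * mu0 N) (j * mu0 N + k0)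
  obtain ⟨c2, hc2⟩ := U0_fam (N := N) j k0
  obtain ⟨c3, hc3⟩ := Decomp.exists_CF_supn_le
    (fun β : Fin n → Fin (mk N (mu0 N)) => crd N (n * mu0 N) (monoB N β))
  refine ⟨c1 * c3 * c2, fun v Qs β γ => ?_⟩
  have hfam : fam j k0 Qs γ ∈ Lk N (j * mu0 N + k0) :=
    LSp_sub_le_Lk _ (tdiv_nonneg Qs) (fam_mem j k0 Qs γ)
  have h1 := hc1 v _ (monoB_mem β) _ hfam
  have h2 := hc2 v Qs γ
  have h3 : nrm N v (n * mu0 N) (monoB N β) ≤ c3 v := hc3 v β
  have hP : 0 ≤ ∏ i, ptn N v (mu0 N) (Qs i) := Finset.prod_nonneg fun i _ => supn_nonneg _ _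
  calc nrm N v (n * mu0 N + (j * mu0 N + k0)) (monoB N β * fam j k0 Qs γ)
      ≤ c1 v * (nrm N v (n * mu0 N) (monoB N β) * nrm N v (j * mu0 N + k0) (fam j k0 Qs γ)) := h1
    _ ≤ c1 v * (c3 v * (c2 v * ∏ i, ptn N v (mu0 N) (Qs i))) := by
        apply mul_le_mul_of_nonneg_left _ (c1.pos v).le
        exact mul_le_mul h3 h2 (nrm_nonneg _ _ _) (c3.pos v).le
    _ = (c1 * c3 * c2) v * ∏ i, ptn N v (mu0 N) (Qs i) := by
        simp only [CF.mul_apply]; ring

end Fermat.Agent.S17
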