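import Fermat.Agent.S17.C.Wedge

/-!
# S17 / E3-LA : abstract linear algebra for the local filtration formula (no curves here)

* `wedgen_append_change` : replacing the last block `y` of a family `(x, y)` by `y' = B y + C x` multiplies the wedge norm by `|det B|`.
* `wedgen_append_chain`  : `|x ∧ y_0 ∧ ... ∧ y_{n-1}| ~ |x| ∏_a dist(y_a, S_a)`, `S_a = span(x, y_0, ..., y_{a-1})`.
* `exists_append_basis`  : Steinitz: a linearly independent family in `W` can be completed to a basis of `W` by members of a spanning family.
-/

set_option autoImplicit false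
set_option linter.unusedSectionVars false

namespace Fermat.Agent.S17

variable {ι : Type*} [Fintype ι]

theorem one_le_kap (v : PlQ) (n : ℕ) : 1 ≤ kap v n := by
  unfold kap
  split_ifs
  · exact le_max_left _ _
  · exact le_rfl

theorem kap_mono (v : PlQ) {a b : ℕ} (h : a ≤ b) : kap v a ≤ kap v b := by
  unfold kap
  split_ifs
  · exact max_le_max le_rfl (by exact_mod_cast h)
  · exact le_rfl

/-- Apply `wedgen_mul` with the block matrix `[[1, 0], [C, B]]` (reindexed by `finSumFinEquiv`), whose determinant is `det B`
(`Matrix.det_fromBlocks_zero₁₂`, `Matrix.det_reindex_self` / `Matrix.det_submatrix_equiv_self`). -/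
theorem wedgen_append_change (v : PlQ) {w n : ℕ} (x : Fin w → ι → Kb) (y y' : Fin n → ι → Kb)
    (B : Matrix (Fin n) (Fin n) Kb) (C : Matrix (Fin n) (Fin w) Kb)
    (h : ∀ a, y' a = ∑ b, B a b • y b + ∑ c, C a c • x c) :
    wedgen v (Fin.append x y') = absv v B.det * wedgen v (Fin.append x y) := by
  classical
  obtain ⟨A, hA⟩ : ∃ A : Matrix (Fin (w + n)) (Fin (w + n)) Kb,
      A = (Matrix.fromBlocks 1 0 C B).submatrix finSumFinEquiv.symm finSumFinEquiv.symm := ⟨_, rfl⟩
  have hdet : A.det = B.det := by
    rw [hA, Matrix.det_submatrix_equiv_self, Matrix.det_fromBlocks_zero₁₂, Matrix.det_one, one_mul]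
  have hfun : Fin.append x y' = fun a => ∑ b, A a b • Fin.append x y b := by
    funext a
    rw [Fin.sum_univ_add]
    refine Fin.addCases (fun i => ?_) (fun j => ?_) a
    · simp only [hA, Matrix.submatrix_apply, finSumFinEquiv_symm_apply_castAdd,
        finSumFinEquiv_symm_apply_natAdd, Matrix.fromBlocks_apply₁₁, Matrix.fromBlocks_apply₁₂,
        Fin.append_left, Fin.append_right, Matrix.zero_apply, zero_smul, Finset.sum_const_zero,
        add_zero, Matrix.one_apply, ite_smul, one_smul, Finset.sum_ite_eq, Finset.mem_univ, if_true]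
    · simp only [hA, Matrix.submatrix_apply, finSumFinEquiv_symm_apply_castAdd,
        finSumFinEquiv_symm_apply_natAdd, Matrix.fromBlocks_apply₂₁, Matrix.fromBlocks_apply₂₂,
        Fin.append_left, Fin.append_right]
      rw [h j, add_comm]
  rw [hfun, wedgen_mul, hdet]

namespace LinAlg

/-- along the chain, `S n` is the span of `(x, y)`. -/
theorem span_range_append {w n : ℕ} (x : Fin w → ι → Kb) (y : Fin n → ι → Kb)
    (S : ℕ → Submodule Kb (ι → Kb)) (h0 : S 0 = Submodule.span Kb (Set.range x))
    (hS : ∀ a : Fin n, S (a + 1) = S a ⊔ Submodule.span Kb {y a}) :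
    Submodule.span Kb (Set.range (Fin.append x y)) = S n := by
  induction n with
  | zero =>
    rw [h0, Fin.append_right_nil x y rfl]
    congr 1
  | succ n ih =>
    have hy : y = Fin.snoc (Fin.init y) (y (Fin.last n)) := (Fin.snoc_init_self y).symm
    have h1 := ih (Fin.init y) (fun a => hS a.castSucc)
    have h2 := hS (Fin.last n)
    simp only [Fin.val_last] at h2
    rw [h2, ← h1, hy, Fin.append_snoc, Fin.range_snoc, Set.insert_eq, Set.union_comm,
      Submodule.span_union]
    simp

end LinAlg

/-- Induction on `n` : `Fin.append_snoc`, `wedgen_snoc_le`, `le_wedgen_snoc`, `Fin.prod_univ_castSucc`, `kap_mono`;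
along the induction `span (range (Fin.append x y)) = S n`. -/
theorem wedgen_append_chain (v : PlQ) {w n : ℕ} (x : Fin w → ι → Kb) (y : Fin n → ι → Kb)
    (S : ℕ → Submodule Kb (ι → Kb)) (h0 : S 0 = Submodule.span Kb (Set.range x))
    (hS : ∀ a : Fin n, S (a + 1) = S a ⊔ Submodule.span Kb {y a}) :
    wedgen v (Fin.append x y) ≤
        kap v (w + n) ^ n * (wedgen v x * ∏ a : Fin n, distn v (y a) (S a)) ∧
      wedgen v x * ∏ a : Fin n, distn v (y a) (S a) ≤ wedgen v (Fin.append x y) := by
  induction n with
  | zero =>
    have : Fin.append x y = x := by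
      rw [Fin.append_right_nil x y rfl]; rfl
    simp [this]
  | succ n ih =>
    have hy : y = Fin.snoc (Fin.init y) (y (Fin.last n)) := (Fin.snoc_init_self y).symm
    obtain ⟨ih1, ih2⟩ := ih (Fin.init y) (fun a => hS a.castSucc)
    have hsp := LinAlg.span_range_append x (Fin.init y) S h0 (fun a => hS a.castSucc)
    have happ : Fin.append x y =
        (Fin.snoc (Fin.append x (Fin.init y)) (y (Fin.last n)) : Fin (w + n + 1) → ι → Kb) := by
      conv_lhs => rw [hy]
      rw [Fin.append_snoc]
    have hprod : ∏ a : Fin (n + 1), distn v (y a) (S a) =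
        (∏ a : Fin n, distn v (Fin.init y a) (S a)) * distn v (y (Fin.last n)) (S n) := by
      rw [Fin.prod_univ_castSucc]
      rfl
    have hd := distn_nonneg v (y (Fin.last n)) (S n)
    have hk1 := one_le_kap v (w + n)
    have hk2 : kap v (w + n) ≤ kap v (w + n + 1) := kap_mono v (Nat.le_succ _)
    have hk0 : 0 ≤ kap v (w + n + 1) := by linarith
    have hP : 0 ≤ wedgen v x * ∏ a : Fin n, distn v (Fin.init y a) (S a) :=
      mul_nonneg (wedgen_nonneg v x) (Finset.prod_nonneg fun a _ => distn_nonneg _ _ _)
    constructor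
    · have h1 := wedgen_snoc_le v (Fin.append x (Fin.init y)) (y (Fin.last n))
      rw [hsp] at h1
      rw [happ, hprod]
      calc wedgen v (Fin.snoc (Fin.append x (Fin.init y)) (y (Fin.last n)) :
              Fin (w + n + 1) → ι → Kb)
          ≤ kap v (w + n + 1) * wedgen v (Fin.append x (Fin.init y)) *
              distn v (y (Fin.last n)) (S n) := h1
        _ ≤ kap v (w + n + 1) * (kap v (w + n + 1) ^ n *
              (wedgen v x * ∏ a : Fin n, distn v (Fin.init y a) (S a))) *
              distn v (y (Fin.last n)) (S n) := by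
            refine mul_le_mul_of_nonneg_right (mul_le_mul_of_nonneg_left (ih1.trans ?_) hk0) hd
            exact mul_le_mul_of_nonneg_right (pow_le_pow_left₀ (by linarith) hk2 n) hP
        _ = kap v (w + (n + 1)) ^ (n + 1) * (wedgen v x *
              ((∏ a : Fin n, distn v (Fin.init y a) (S a)) * distn v (y (Fin.last n)) (S n))) := by
            rw [← add_assoc]; ring
    · have h1 := le_wedgen_snoc v (Fin.append x (Fin.init y)) (y (Fin.last n))
      rw [hsp] at h1
      rw [happ, hprod, ← mul_assoc]
      exact (mul_le_mul_of_nonneg_right ih2 hd).trans h1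

namespace LinAlg

theorem exists_append_li {K V : Type*} [Field K] [AddCommGroup V] [Module K V] {w n r : ℕ}
    (t : Fin w → V) (ht : LinearIndependent K t) (β : Fin r → V) (W : Submodule K V)
    (hβ : Submodule.span K (Set.range β) = W) (htW : ∀ a, t a ∈ W)
    (hdim : Module.finrank K W = w + n) (m : ℕ) (hm : m ≤ n) :
    ∃ g : Fin m → Fin r, LinearIndependent K (Fin.append t (β ∘ g)) := by
  induction m with
  | zero =>
    refine ⟨Fin.elim0, ?_⟩
    rw [Fin.append_right_nil t _ rfl]
    exact ht.comp _ (Fin.cast_injective _)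
  | succ m ih =>
    obtain ⟨g, hg⟩ := ih (Nat.le_of_succ_le hm)
    have hex : ∃ j, β j ∉ Submodule.span K (Set.range (Fin.append t (β ∘ g))) := by
      by_contra hcon
      push Not at hcon
      have h1 : W ≤ Submodule.span K (Set.range (Fin.append t (β ∘ g))) := by
        rw [← hβ, Submodule.span_le]
        rintro _ ⟨j, rfl⟩
        exact hcon j
      have h2 : Submodule.span K (Set.range (Fin.append t (β ∘ g))) ≤ W := by
        rw [Submodule.span_le]
        rintro _ ⟨a, rfl⟩
        refine Fin.addCases (fun i => ?_) (fun j => ?_) a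
        · rw [Fin.append_left]; exact htW i
        · rw [Fin.append_right, ← hβ]; exact Submodule.subset_span ⟨g j, rfl⟩
      have h3 := finrank_span_eq_card hg
      rw [le_antisymm h2 h1, hdim, Fintype.card_fin] at h3
      omega
    obtain ⟨j, hj⟩ := hex
    refine ⟨Fin.snoc g j, ?_⟩
    rw [Fin.comp_snoc, Fin.append_snoc]
    exact linearIndependent_finSnoc.2 ⟨hg, hj⟩

end LinAlg

/-- Steinitz (`exists_linearIndependent_extension` with `s = range t`, `t = range t ∪ range β`, then count). -/
theorem exists_append_basis {K V : Type*} [Field K] [AddCommGroup V] [Module K V] {w n r : ℕ}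
    (t : Fin w → V) (ht : LinearIndependent K t) (β : Fin r → V) (W : Submodule K V)
    (hβ : Submodule.span K (Set.range β) = W) (htW : ∀ a, t a ∈ W)
    (hdim : Module.finrank K W = w + n) :
    ∃ g : Fin n → Fin r, LinearIndependent K (Fin.append t (β ∘ g)) ∧
      Submodule.span K (Set.range (Fin.append t (β ∘ g))) = W := by
  obtain ⟨g, hg⟩ := LinAlg.exists_append_li t ht β W hβ htW hdim n le_rfl
  refine ⟨g, hg, ?_⟩
  have h2 : Submodule.span K (Set.range (Fin.append t (β ∘ g))) ≤ W := by
    rw [Submodule.span_le]
    rintro _ ⟨a, rfl⟩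
    refine Fin.addCases (fun i => ?_) (fun j => ?_) a
    · rw [Fin.append_left]; exact htW i
    · rw [Fin.append_right, ← hβ]; exact Submodule.subset_span ⟨g j, rfl⟩
  have : FiniteDimensional K W := by
    rw [← hβ]; exact FiniteDimensional.span_of_finite K (Set.finite_range β)
  refine Submodule.eq_of_le_of_finrank_eq h2 ?_
  rw [finrank_span_eq_card hg, hdim, Fintype.card_fin]

/-- a wedge of more vectors than the dimension vanishes; more generally of a linearly dependent family -/
theorem wedgen_eq_zero_of_not_li (v : PlQ) {w : ℕ} {x : Fin w → ι → Kb} (h : ¬ LinearIndependent Kb x) :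
    wedgen v x = 0 := by
  have := (wedgen_pos_iff v x).not.mpr h
  exact le_antisymm (not_lt.mp this) (wedgen_nonneg v x)

end Fermat.Agent.S17
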