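import Fermat.Agent.S17.Curve.Unif
import Fermat.Agent.S17.E.LinAlg

/-!
# S17 / Part E : definitions

`ofCrd k` : coordinates → functions;  `cS k D` : coordinate vectors of `L(k∞ - D)`;  `IsRatBasis k E x` : `x` is a basis of `L(k∞ - E)`
consisting of rational functions;  `hW k E` : the height of the subspace `L(k∞ - E) ⊆ L_k ≅ K^m`;  `tailDiv Q a = ∑_{i ≥ a} Q_i`.
-/

set_option autoImplicit false

open AlgebraicCurve ModularCurve IntermediateField

namespace Fermat.Agent.S17

open FF

variable (N : ℕ) [NeZero N]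

/-- coordinates → functions -/
noncomputable def ofCrd (k : ℕ) : (Fin (mk N k) → Kb) →ₗ[Kb] FN N :=
  Fintype.linearCombination Kb (fun i => (bas N k i : FN N))

/-- the space of coordinate vectors (w.r.t. `bas N k`) of `L(k∞ - D)` -/
noncomputable def cS (k : ℕ) (D : Dv N) : Submodule Kb (Fin (mk N k) → Kb) :=
  (LSp (koo N k - D)).comap (ofCrd N k)

/-- `x` is a basis of `L(k∞ - E)` consisting of rational functions -/
structure IsRatBasis (k : ℕ) (E : Dv N) {w : ℕ} (x : Fin w → FN N) : Prop where
  rat : ∀ a, IsRatF N (x a)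
  li : LinearIndependent Kb x
  span : Submodule.span Kb (Set.range x) = LSp (koo N k - E)

/-- the height of the subspace `L(k∞ - E)` of `L_k ≅ K^{m_k}` (`E` rational effective) -/
noncomputable def hW (k : ℕ) (E : Dv N) : ℝ :=
  open Classical in
  if h : ∃ (w : ℕ) (x : Fin w → FN N), IsRatBasis N k E x then
    hwedge (fun a => crd N k (h.choose_spec.choose a)) else 0

variable {N}

/-- `∑_{i ≥ a} Q_i` -/
noncomputable def tailDiv {n : ℕ} (Q : Fin n → Pl N) (a : ℕ) : Dv N :=
  ∑ i ∈ Finset.univ.filter (fun i : Fin n => a ≤ i.val), pdiv (Q i)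

/-- the standing assumption on the level `μ` of Part E (relative to the degree `n` of `E₊`, `E₋`) -/
def BigLevel (N : ℕ) [NeZero N] (n μ : ℕ) : Prop :=
  (2 * n + 1) * mu0 N + (rc Kb (FN N)).toNat ≤ μ

end Fermat.Agent.S17
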