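import Fermat.Agent.S17.E.Local

/-!
# S17 / E3-GT : `h(W_{E₊+E₋}) = h(W_{E₊}) + h(W_{E₋}) - (E₊.E₋) + O(1)`

PROOF.  `E₊ = tdiv P`, `E₋ = tdiv Q` (`exists_tdiv_eq`), `P_i ≠ Q_j`.  Rational bases: `t` of `L(μ∞-E₊-E₋)` (`exists_isRatBasis`), `(t,s₊)` of `L(μ∞-E₊)`,
`(t,s₋)` of `L(μ∞-E₋)` (`exists_isRatBasis_append`, dimensions from `ell_koo_sub`).  `((t,s₋),s₊)` is a rational basis of `L_μ = L(μ∞ - 0)`:
it has `mk μ` members and it is linearly independent by the second inequality of `LT` (all other factors are `> 0`: `wedgen_pos_iff`, `linearIndependent_crd`,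
`dl_eq_zero_iff`), or directly: `L(μ∞-E₊) ∩ L(μ∞-E₋) = L(μ∞-E₊-E₋)`.  Its `hwedge` is `0` (`hwedge_eq_zero_of_full`).
Take `Real.log` of `LT`, sum over `v` (`abs_finsum_sub_le`, supports finite by `finite_wedgen_ne_one`, `finite_support_lpair`), `lpair_tdiv`, `hW_eq`.
-/

set_option autoImplicit false

open AlgebraicCurve ModularCurve IntermediateField

namespace Fermat.Agent.S17

open FF

variable {N : ℕ} [NeZero N]

namespace GTaux

/-- real arithmetic: two-sided multiplicative estimate ⇒ additive estimate for the logarithms -/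
theorem abs_log_le {A X D Bp Bm c : ℝ} (hA : 0 < A) (hX : 0 < X) (hD : 0 < D) (hBp : 0 < Bp)
    (hBm : 0 < Bm) (hc : 0 < c) (h1 : A * X ≤ c * (D * (Bp * Bm)))
    (h2 : D * (Bp * Bm) ≤ c * (A * X)) :
    |(Real.log A + Real.log X - Real.log D) - (Real.log Bp + Real.log Bm)| ≤ Real.log c := by
  have e1 : Real.log (A * X) = Real.log A + Real.log X := Real.log_mul hA.ne' hX.ne'
  have e2 : Real.log (D * (Bp * Bm)) = Real.log D + (Real.log Bp + Real.log Bm) := by
    rw [Real.log_mul hD.ne' (mul_pos hBp hBm).ne', Real.log_mul hBp.ne' hBm.ne']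
  have l1 := Real.log_le_log (mul_pos hA hX) h1
  have l2 := Real.log_le_log (mul_pos hD (mul_pos hBp hBm)) h2
  rw [Real.log_mul hc.ne' (mul_pos hD (mul_pos hBp hBm)).ne', e1, e2] at l1
  rw [Real.log_mul hc.ne' (mul_pos hA hX).ne', e1, e2] at l2
  rw [abs_le]
  constructor <;> linarith

theorem finite_support_log_wedgen {ι : Type*} [Fintype ι] {w : ℕ} {x : Fin w → ι → Kb}
    (hx : LinearIndependent Kb x) :
    (Function.support fun v : PlQ => Real.log (wedgen v x)).Finite :=
  Siegel.finite_support_log (finite_wedgen_ne_one hx)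

end GTaux

open GTaux in
theorem GT (n μ : ℕ) (hμ : BigLevel N n μ) : ∃ C : ℝ, ∀ Ep Em : Dv N, 0 ≤ Ep → 0 ≤ Em →
    IsRatD N Ep → IsRatD N Em → Divisor.degree Ep = n → Divisor.degree Em = n →
    (∀ P, Ep P = 0 ∨ Em P = 0) →
    |hW N μ (Ep + Em) - hW N μ Ep - hW N μ Em + gpair N Ep Em| ≤ C := by
  obtain ⟨c, hc⟩ := LT n μ hμ
  refine ⟨c.tot, ?_⟩
  intro Ep Em hEp hEm hrp hrm hdp hdm hdisj
  obtain ⟨P, rfl⟩ := exists_tdiv_eq hEp hdp
  obtain ⟨Q, rfl⟩ := exists_tdiv_eq hEm hdm
  have hPQ : ∀ i j, P i ≠ Q j := by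
    intro i j hij
    rcases hdisj (P i) with h | h
    · exact (tdiv_apply_eq_zero_iff P (P i)).mp h i rfl
    · exact (tdiv_apply_eq_zero_iff Q (P i)).mp h j hij.symm
  have hsum0 : (0 : Dv N) ≤ tdiv P + tdiv Q := add_nonneg hEp hEm
  -- dimensions
  have hd2 : Divisor.degree (tdiv P + tdiv Q) = ((2 * n : ℕ) : ℤ) := by
    rw [map_add, hdp, hdm]; push_cast; ring
  have hell2 := ell_koo_sub hμ hd2 le_rfl
  have hellp := ell_koo_sub hμ hdp (by omega)
  have hellm := ell_koo_sub hμ hdm (by omega)
  -- rational bases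
  have hex := exists_isRatBasis μ (isRatD_add hrp hrm)
  generalize ell (koo N μ - (tdiv P + tdiv Q)) = w at hex hell2
  obtain ⟨t, ht⟩ := hex
  obtain ⟨sp, hsp⟩ := exists_isRatBasis_append (n := n) hrp
    (le_add_of_nonneg_right hEm : tdiv P ≤ tdiv P + tdiv Q) ht (by omega)
  obtain ⟨sm, hsm⟩ := exists_isRatBasis_append (n := n) hrm
    (le_add_of_nonneg_left hEp : tdiv Q ≤ tdiv P + tdiv Q) ht (by omega)
  have hspmem : ∀ a, sp a ∈ LSp (koo N μ - tdiv P) := by
    intro a
    have := hsp.mem (Fin.natAdd w a)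
    rwa [Fin.append_right] at this
  have hLT := fun v => hc v P Q hPQ w t sm sp (by omega) ht.span hsm.span hspmem
  -- membership in `L_μ`
  have htL : ∀ a, t a ∈ Lk N μ := fun a => LSp_sub_le_Lk μ hsum0 (ht.mem a)
  have htspL : ∀ a, Fin.append t sp a ∈ Lk N μ := fun a => LSp_sub_le_Lk μ hEp (hsp.mem a)
  have htsmL : ∀ a, Fin.append t sm a ∈ Lk N μ := fun a => LSp_sub_le_Lk μ hEm (hsm.mem a)
  have hxL : ∀ a, Fin.append (Fin.append t sm) sp a ∈ Lk N μ := by
    intro a
    refine Fin.addCases (fun b => ?_) (fun b => ?_) a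
    · rw [Fin.append_left]; exact htsmL b
    · rw [Fin.append_right]; exact LSp_sub_le_Lk μ hEp (hspmem b)
  -- linear independence in coordinates
  have lit : LinearIndependent Kb (fun a => crd N μ (t a)) :=
    (linearIndependent_crd t htL).mpr ht.li
  have litsp : LinearIndependent Kb (fun a => crd N μ (Fin.append t sp a)) :=
    (linearIndependent_crd _ htspL).mpr hsp.li
  have litsm : LinearIndependent Kb (fun a => crd N μ (Fin.append t sm a)) :=
    (linearIndependent_crd _ htsmL).mpr hsm.li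
  have hPi : ∀ v, 0 < ∏ i, ∏ j, dl N v (P i) (Q j) := by
    intro v
    refine Finset.prod_pos fun i _ => Finset.prod_pos fun j _ => ?_
    exact lt_of_le_of_ne (dl_nonneg v _ _) (fun h => hPQ i j ((dl_eq_zero_iff v _ _).mp h.symm))
  have hA : ∀ v, 0 < wedgen v (fun a => crd N μ (t a)) := fun v => (wedgen_pos_iff v _).mpr lit
  have hBp : ∀ v, 0 < wedgen v (fun a => crd N μ (Fin.append t sp a)) :=
    fun v => (wedgen_pos_iff v _).mpr litsp
  have hBm : ∀ v, 0 < wedgen v (fun a => crd N μ (Fin.append t sm a)) :=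
    fun v => (wedgen_pos_iff v _).mpr litsm
  have hX : ∀ v, 0 < wedgen v (fun a => crd N μ (Fin.append (Fin.append t sm) sp a)) := by
    intro v
    have h1 := (hLT v).2
    have h2 : 0 < (∏ i, ∏ j, dl N v (P i) (Q j)) *
        (wedgen v (fun a => crd N μ (Fin.append t sp a)) *
          wedgen v (fun a => crd N μ (Fin.append t sm a))) :=
      mul_pos (hPi v) (mul_pos (hBp v) (hBm v))
    have h3 := lt_of_lt_of_le h2 h1
    have h4 : 0 < wedgen v (fun a => crd N μ (t a)) *
        wedgen v (fun a => crd N μ (Fin.append (Fin.append t sm) sp a)) :=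
      (pos_iff_pos_of_mul_pos h3).mp (c.pos v)
    exact (pos_iff_pos_of_mul_pos h4).mp (hA v)
  have lix : LinearIndependent Kb (fun a => crd N μ (Fin.append (Fin.append t sm) sp a)) :=
    (wedgen_pos_iff none _).mp (hX none)
  have lix' : LinearIndependent Kb (Fin.append (Fin.append t sm) sp) :=
    (linearIndependent_crd _ hxL).mp lix
  -- the full basis
  have hfull : IsRatBasis N μ 0 (Fin.append (Fin.append t sm) sp) := by
    refine ⟨?_, lix', ?_⟩
    · intro a
      refine Fin.addCases (fun b => ?_) (fun b => ?_) a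
      · rw [Fin.append_left]; exact hsm.rat b
      · rw [Fin.append_right]
        have := hsp.rat (Fin.natAdd w b)
        rwa [Fin.append_right] at this
    · rw [sub_zero]
      have hle : Submodule.span Kb (Set.range (Fin.append (Fin.append t sm) sp)) ≤ Lk N μ := by
        rw [Submodule.span_le]
        rintro _ ⟨a, rfl⟩
        exact hxL a
      refine Submodule.eq_of_le_of_finrank_eq hle ?_
      rw [finrank_span_eq_card lix', Fintype.card_fin]
      show w + n + n = mk N μ
      omega
  have h0 := hwedge_eq_zero_of_full hfull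
  -- sum over all places
  have key := abs_finsum_sub_le c
    (fun v => Real.log (wedgen v (fun a => crd N μ (t a))) +
      Real.log (wedgen v (fun a => crd N μ (Fin.append (Fin.append t sm) sp a))) +
      lpair N v (tdiv P) (tdiv Q))
    (fun v => Real.log (wedgen v (fun a => crd N μ (Fin.append t sp a))) +
      Real.log (wedgen v (fun a => crd N μ (Fin.append t sm a))))
    (((finite_support_log_wedgen lit).union (finite_support_log_wedgen lix)).union
      (finite_support_lpair _ _) |>.subset (by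
        refine (Function.support_add _ _).trans (Set.union_subset_union_left _ ?_)
        exact Function.support_add _ _))
    (((finite_support_log_wedgen litsp).union (finite_support_log_wedgen litsm)).subset
      (Function.support_add _ _))
    (fun v => by
      have h5 : lpair N v (tdiv P) (tdiv Q) = - Real.log (∏ i, ∏ j, dl N v (P i) (Q j)) := by
        rw [lpair_tdiv, Real.log_prod (fun i _ => (Finset.prod_pos fun j _ =>
          lt_of_le_of_ne (dl_nonneg v _ _)
            (fun h => hPQ i j ((dl_eq_zero_iff v _ _).mp h.symm))).ne'), ← Finset.sum_neg_distrib]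
        refine Finset.sum_congr rfl fun i _ => ?_
        rw [Real.log_prod (fun j _ => (lt_of_le_of_ne (dl_nonneg v _ _)
            (fun h => hPQ i j ((dl_eq_zero_iff v _ _).mp h.symm))).ne'), ← Finset.sum_neg_distrib]
      rw [h5, ← sub_eq_add_neg]
      exact abs_log_le (hA v) (hX v) (hPi v) (hBp v) (hBm v) (c.pos v) (hLT v).1 (hLT v).2)
  rw [finsum_add_distrib (((finite_support_log_wedgen lit).union
      (finite_support_log_wedgen lix)).subset (Function.support_add _ _))
      (finite_support_lpair _ _),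
    finsum_add_distrib (finite_support_log_wedgen lit) (finite_support_log_wedgen lix),
    finsum_add_distrib (finite_support_log_wedgen litsp) (finite_support_log_wedgen litsm)] at key
  have e1 : ∑ᶠ v : PlQ, Real.log (wedgen v (fun a => crd N μ (t a))) =
      hW N μ (tdiv P + tdiv Q) := hW_eq hsum0 ht
  have e2 : ∑ᶠ v : PlQ, Real.log (wedgen v (fun a => crd N μ (Fin.append t sp a))) =
      hW N μ (tdiv P) := hW_eq hEp hsp
  have e3 : ∑ᶠ v : PlQ, Real.log (wedgen v (fun a => crd N μ (Fin.append t sm a))) =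
      hW N μ (tdiv Q) := hW_eq hEm hsm
  have e4 : ∑ᶠ v : PlQ, Real.log (wedgen v
      (fun a => crd N μ (Fin.append (Fin.append t sm) sp a))) = 0 := h0
  have e5 : ∑ᶠ v : PlQ, lpair N v (tdiv P) (tdiv Q) = gpair N (tdiv P) (tdiv Q) := rfl
  rw [e1, e2, e3, e4, e5] at key
  have e6 : hW N μ (tdiv P + tdiv Q) - hW N μ (tdiv P) - hW N μ (tdiv Q) +
      gpair N (tdiv P) (tdiv Q) =
      hW N μ (tdiv P + tdiv Q) + 0 + gpair N (tdiv P) (tdiv Q) -
        (hW N μ (tdiv P) + hW N μ (tdiv Q)) := by ring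
  rw [e6]
  exact key

end Fermat.Agent.S17
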