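import Fermat.Agent.S17.E.Basic

/-!
# S17 / Part E : what Part E needs from Part D

Only the corollary of D3 ("Mahler measure = height"): `hh(div0 φ) = h(φ) + O(1)`, in the form `hh_{μ₀}(div0 φ) = μ₀ h(φ) + O(1)`.
PROOF (task S17/I-mahler).  `D3'` (in `D/Global.lean`) is this statement for `rc + 1 ≤ k`.  In general put `K := μ₀`: `φ ∈ L_k ⊆ L_{k+K}` (`Lk_mono`),
`div0 (k+K) φ = div0 k φ + K∞`, `hdiv_add`, `hdiv μ₀ (K∞)` is a constant, and `|hsec (k+K) φ - hsec k φ| ≤ c.tot` by `U0_nrm_mono`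
(logs, `finsum`; supports finite by `finite_supn_ne_one`; compare `abs_finsum_sub_le` / `GlobalA.finsum_le_add`).
-/

set_option autoImplicit false

open AlgebraicCurve ModularCurve IntermediateField

namespace Fermat.Agent.S17

open FF

variable {N : ℕ} [NeZero N]

theorem mahler (k : ℕ) : ∃ C : ℝ, ∀ φ : FN N, φ ∈ Lk N k → φ ≠ 0 → IsRatF N φ →
    |hdiv N (mu0 N) (div0 N k φ) - mu0 N * hsec N k φ| ≤ C := by
  have hmu : rc Kb (FN N) + 2 ≤ (mu0 N : ℤ) := rc_add_two_le_mu0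
  have hmu1 : rc Kb (FN N) + 1 ≤ (mu0 N : ℤ) := by omega
  have hn : rc Kb (FN N) + 1 ≤ ((k + mu0 N : ℕ) : ℤ) := by push_cast; omega
  obtain ⟨C₁, hC₁⟩ := D3' (N := N) hn hmu1
  obtain ⟨c, hc⟩ := U0_nrm_mono (N := N) (Nat.le_add_right k (mu0 N))
  refine ⟨C₁ + |hdiv N (mu0 N) (koo N (mu0 N))| + mu0 N * c.tot, fun φ hφ h0 hr => ?_⟩
  have hφ' : φ ∈ Lk N (k + mu0 N) := Lk_mono (Nat.le_add_right k (mu0 N)) hφ
  have e1 := hC₁ φ hφ' h0 hr
  have e2 : div0 N (k + mu0 N) φ = div0 N k φ + koo N (mu0 N) := by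
    rw [div0, div0, koo_add, add_assoc]
  rw [e2, hdiv_add hmu1] at e1
  have e3 : |hsec N (k + mu0 N) φ - hsec N k φ| ≤ c.tot := by
    unfold hsec hvec
    refine abs_finsum_sub_le c _ _ (D3aux.finite_support_log_nrm hφ' h0)
      (D3aux.finite_support_log_nrm hφ h0) (fun v => ?_)
    exact D3aux.abs_log_sub_log_le (D3aux.nrm_pos v hφ' h0) (D3aux.nrm_pos v hφ h0) (c.pos v)
      (hc v φ hφ).1 (hc v φ hφ).2
  have hm : (0 : ℝ) ≤ mu0 N := Nat.cast_nonneg _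
  have e4 : |(mu0 N : ℝ) * (hsec N (k + mu0 N) φ - hsec N k φ)| ≤ mu0 N * c.tot := by
    rw [abs_mul, abs_of_nonneg hm]
    exact mul_le_mul_of_nonneg_left e3 hm
  have e5 : hdiv N (mu0 N) (div0 N k φ) - mu0 N * hsec N k φ =
      (hdiv N (mu0 N) (div0 N k φ) + hdiv N (mu0 N) (koo N (mu0 N)) -
        mu0 N * hsec N (k + mu0 N) φ) - hdiv N (mu0 N) (koo N (mu0 N)) +
        mu0 N * (hsec N (k + mu0 N) φ - hsec N k φ) := by ring
  rw [e5]
  refine (abs_add_le _ _).trans (add_le_add ((abs_sub _ _).trans (add_le_add e1 le_rfl)) e4)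

end Fermat.Agent.S17
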