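import Fermat.Agent.S17.E.KLb

/-!
# S17 / E3-KLa : the key local lemma, direction `A → U`   (proof: header of `E/KeyLocal.lean`)
-/

set_option autoImplicit false

open AlgebraicCurve ModularCurve IntermediateField

namespace Fermat.Agent.S17

open FF

variable {N : ℕ} [NeZero N]

namespace KLaAux

open KLbAux

/-- an index where `|ev_Q (sec P ik)|` is maximal -/
theorem exists_star_sec (v : PlQ) (P Q : Pl N) :
    ∃ ik : Fin (mk N (mu0 N)) × Fin (mk N (mu0 N)),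
      absv v (ev N (mu0 N) Q (sec N P ik)) =
        dl N v P Q * ptn N v (mu0 N) P * ptn N v (mu0 N) Q := by
  obtain ⟨s, -⟩ := exists_star v Q
  have : Nonempty (Fin (mk N (mu0 N)) × Fin (mk N (mu0 N))) := ⟨(s, s)⟩
  rw [← supn_ev_sec]
  exact exists_absv_eq_supn v (fun ik => ev N (mu0 N) Q (sec N P ik))

theorem dl_pos (v : PlQ) {P Q : Pl N} (h : P ≠ Q) : 0 < dl N v P Q :=
  lt_of_le_of_ne (dl_nonneg v P Q) (fun h0 => h ((dl_eq_zero_iff v P Q).mp h0.symm))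

end KLaAux

open KLbAux KLaAux

theorem KLa (n j : ℕ) {k0 : ℕ} (hk0 : rc Kb (FN N) + mu0 N ≤ k0) : ∃ c : CF, ∀ v,
    ∀ (P : Fin n → Pl N) (Qs : Fin j → Pl N) (Q : Pl N), (∀ i, P i ≠ Q) →
    ∀ t' ∈ LSp (koo N ((n + j) * mu0 N + k0) - tdiv Qs),
      ∃ t ∈ LSp (koo N ((n + j) * mu0 N + k0) - (tdiv P + tdiv Qs)),
        t' - t ∈ LSp (koo N ((n + j) * mu0 N + k0) - (tdiv Qs + pdiv Q)) ∧
        (∏ i, dl N v (P i) Q) * nrm N v ((n + j) * mu0 N + k0) t ≤
          c v * nrm N v ((n + j) * mu0 N + k0) t' := by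
  obtain ⟨c₁, hc₁⟩ := BD (N := N) n j hk0
  obtain ⟨c₂, hc₂⟩ := U0_fam (N := N) (n + j) k0
  refine ⟨CF.ofNat (Fintype.card ((Fin n → Fin (mk N (mu0 N))) × Gam N j k0)) * c₂ * c₁,
    fun v P Qs Q hPQ t' ht' => ?_⟩
  obtain ⟨a, hta, ha⟩ := hc₁ v Qs t' ht'
  have hQpos : 0 < ptn N v (mu0 N) Q := ptn_pos one_le_mu0' v Q
  have hPpos : ∀ i, 0 < ptn N v (mu0 N) (P i) := fun i => ptn_pos one_le_mu0' v (P i)
  have hdlpos : ∀ i, 0 < dl N v (P i) Q := fun i => dl_pos v (hPQ i)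
  choose gs hgs using fun i => exists_star_sec v (P i) Q
  have hgs0 : ∀ i, ev N (mu0 N) Q (sec N (P i) (gs i)) ≠ 0 := by
    intro i h
    have := hgs i
    rw [h, map_zero] at this
    exact (mul_pos (mul_pos (hdlpos i) (hPpos i)) hQpos).ne this
  -- notation
  let Ss : FN N := ∏ i : Fin n, sec N (P i) (gs i)
  let nu : (Fin n → Fin (mk N (mu0 N))) → Fin n → Kb := fun β i =>
    pt N (mu0 N) Q (β i) / ev N (mu0 N) Q (sec N (P i) (gs i))
  let Nu : (Fin n → Fin (mk N (mu0 N))) → Kb := fun β => ∏ i, nu β i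
  have hSs : Ss ∈ Lk N (n * mu0 N) ∧ ev N (n * mu0 N) Q Ss =
      ∏ i, ev N (mu0 N) Q (sec N (P i) (gs i)) :=
    ev_prod Q _ (fun i => secx_mem _ _)
  have hMev : ∀ β : Fin n → Fin (mk N (mu0 N)), monoB N β ∈ Lk N (n * mu0 N) ∧
      ev N (n * mu0 N) Q (monoB N β) = ∏ i : Fin n, pt N (mu0 N) Q (β i) :=
    fun β => ev_prod Q (fun i : Fin n => (bas N (mu0 N) (β i) : FN N))
      (fun i => (bas N (mu0 N) (β i)).2)
  have hcc : ∀ γ : Gam N j k0, fam j k0 Qs γ ∈ LSp (koo N (j * mu0 N + k0) - tdiv Qs) :=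
    fun γ => fam_mem j k0 Qs _
  -- `Ss * fam` is a member of the big family
  have hbig : ∀ γ : Gam N j k0, Ss * fam j k0 Qs γ =
      fam (n + j) k0 (Fin.append P Qs) (Fin.append gs γ.1, γ.2) := by
    intro γ
    rw [fam_append]
    simp only [Fin.append_left, Fin.append_right]
    rfl
  have hbigmem : ∀ γ : Gam N j k0, Ss * fam j k0 Qs γ ∈
      LSp (koo N ((n + j) * mu0 N + k0) - (tdiv P + tdiv Qs)) := by
    intro γ
    rw [hbig, ← tdiv_append]
    exact fam_mem _ _ _ _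
  -- vanishing at `Q`
  have hvan : ∀ β, monoB N β - Nu β • Ss ∈ LSp (koo N (n * mu0 N) - pdiv Q) := by
    intro β
    have hmem : monoB N β - Nu β • Ss ∈ Lk N (n * mu0 N) :=
      Submodule.sub_mem _ (hMev β).1 (Submodule.smul_mem _ _ hSs.1)
    rw [← ev_eq_zero_iff Q hmem, sub_eq_add_neg, ← neg_smul,
      ev_add Q (hMev β).1 (Submodule.smul_mem _ _ hSs.1), ev_smul Q _ hSs.1, (hMev β).2, hSs.2]
    have : Nu β * ∏ i, ev N (mu0 N) Q (sec N (P i) (gs i)) =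
        ∏ i : Fin n, pt N (mu0 N) Q (β i) := by
      rw [← Finset.prod_mul_distrib]
      exact Finset.prod_congr rfl fun i _ => div_mul_cancel₀ _ (hgs0 i)
    rw [neg_mul, this, add_neg_cancel]
  have hD2 : koo N ((n + j) * mu0 N + k0) - (tdiv Qs + pdiv Q) =
      (koo N (n * mu0 N) - pdiv Q) + (koo N (j * mu0 N + k0) - tdiv Qs) := by
    rw [koo_split]; abel
  have hterm : ∀ p : (Fin n → Fin (mk N (mu0 N))) × Gam N j k0,
      a p • (Nu p.1 • (Ss * fam j k0 Qs p.2)) ∈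
        LSp (koo N ((n + j) * mu0 N + k0) - (tdiv P + tdiv Qs)) :=
    fun p => Submodule.smul_mem _ _ (Submodule.smul_mem _ _ (hbigmem p.2))
  refine ⟨∑ p, a p • (Nu p.1 • (Ss * fam j k0 Qs p.2)),
    Submodule.sum_mem _ fun p _ => hterm p, ?_, ?_⟩
  · have hdiff : t' - ∑ p, a p • (Nu p.1 • (Ss * fam j k0 Qs p.2)) =
        ∑ p, a p • ((monoB N p.1 - Nu p.1 • Ss) * fam j k0 Qs p.2) := by
      rw [hta, ← Finset.sum_sub_distrib]
      refine Finset.sum_congr rfl fun p _ => ?_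
      rw [sub_mul, smul_mul_assoc, smul_sub]
    rw [hdiff, hD2]
    exact Submodule.sum_mem _ fun p _ =>
      Submodule.smul_mem _ _ (mul_mem_LSp (hvan p.1) (hcc p.2))
  · -- the norm estimate
    have hw : ∀ i, 0 < dl N v (P i) Q * ptn N v (mu0 N) (P i) :=
      fun i => mul_pos (hdlpos i) (hPpos i)
    have hptnQ : ∀ i, 0 ≤ ptn N v (mu0 N) (Qs i) := fun i => supn_nonneg _ _
    have hnu : ∀ β i, absv v (nu β i) ≤ (dl N v (P i) Q * ptn N v (mu0 N) (P i))⁻¹ := by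
      intro β i
      show absv v (_ / _) ≤ _
      rw [map_div₀, hgs i, div_le_iff₀ (mul_pos (hw i) hQpos), ← mul_assoc,
        inv_mul_cancel₀ (hw i).ne', one_mul]
      exact absv_le_supn v _ _
    have hNu : ∀ β, absv v (Nu β) ≤ (∏ i, (dl N v (P i) Q * ptn N v (mu0 N) (P i)))⁻¹ := by
      intro β
      show absv v (∏ i, nu β i) ≤ _
      rw [map_prod, ← Finset.prod_inv_distrib]
      exact Finset.prod_le_prod (fun i _ => (absv v).nonneg _) (fun i _ => hnu β i)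
    have hc₂pos := c₂.pos v
    have hW : 0 < ∏ i, (dl N v (P i) Q * ptn N v (mu0 N) (P i)) :=
      Finset.prod_pos fun i _ => hw i
    have hprodP : 0 ≤ ∏ i, ptn N v (mu0 N) (P i) := Finset.prod_nonneg fun i _ => (hPpos i).le
    have hprodQ : 0 ≤ ∏ i, ptn N v (mu0 N) (Qs i) := Finset.prod_nonneg fun i _ => hptnQ i
    have hsplit : ∏ l, ptn N v (mu0 N) (Fin.append P Qs l) =
        (∏ i, ptn N v (mu0 N) (P i)) * ∏ i, ptn N v (mu0 N) (Qs i) := by
      rw [Fin.prod_univ_add]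
      simp only [Fin.append_left, Fin.append_right]
    have hnn : 0 ≤ tdiv P + tdiv Qs := add_nonneg (tdiv_nonneg P) (tdiv_nonneg Qs)
    have hsum := nrm_sum_le v (k := (n + j) * mu0 N + k0) Finset.univ
      (fun p : (Fin n → Fin (mk N (mu0 N))) × Gam N j k0 =>
        a p • (Nu p.1 • (Ss * fam j k0 Qs p.2)))
      (fun p _ => LSp_sub_le_Lk _ hnn (hterm p))
      (r := supn v a * ((∏ i, (dl N v (P i) Q * ptn N v (mu0 N) (P i)))⁻¹ *
        (c₂ v * ((∏ i, ptn N v (mu0 N) (P i)) * ∏ i, ptn N v (mu0 N) (Qs i)))))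
      (mul_nonneg (supn_nonneg _ _) (mul_nonneg (inv_nonneg.mpr hW.le)
        (mul_nonneg hc₂pos.le (mul_nonneg hprodP hprodQ))))
      (by
        intro p _
        rw [nrm_smul, nrm_smul]
        refine mul_le_mul (absv_le_supn v a p) ?_
          (mul_nonneg ((absv v).nonneg _) (nrm_nonneg _ _ _)) (supn_nonneg _ _)
        refine mul_le_mul (hNu p.1) ?_ (nrm_nonneg _ _ _) (inv_nonneg.mpr hW.le)
        rw [hbig, ← hsplit]
        exact hc₂ v _ _)
    have hdlprod : 0 ≤ ∏ i, dl N v (P i) Q := Finset.prod_nonneg fun i _ => (hdlpos i).le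
    have hkap : 0 ≤ kap v (Fintype.card ((Fin n → Fin (mk N (mu0 N))) × Gam N j k0)) :=
      (zero_le_one.trans ((CF.ofNat _).one_le v))
    rw [Finset.card_univ] at hsum
    show _ ≤ kap v (Fintype.card ((Fin n → Fin (mk N (mu0 N))) × Gam N j k0)) * c₂ v * c₁ v * _
    have hone : (∏ i, dl N v (P i) Q) * (∏ i, ptn N v (mu0 N) (P i)) *
        (∏ i, (dl N v (P i) Q * ptn N v (mu0 N) (P i)))⁻¹ = 1 := by
      rw [← Finset.prod_mul_distrib]
      exact mul_inv_cancel₀ hW.ne'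
    calc (∏ i, dl N v (P i) Q) * nrm N v ((n + j) * mu0 N + k0)
          (∑ p, a p • (Nu p.1 • (Ss * fam j k0 Qs p.2)))
        ≤ (∏ i, dl N v (P i) Q) *
          (kap v (Fintype.card ((Fin n → Fin (mk N (mu0 N))) × Gam N j k0)) *
          (supn v a * ((∏ i, (dl N v (P i) Q * ptn N v (mu0 N) (P i)))⁻¹ *
          (c₂ v * ((∏ i, ptn N v (mu0 N) (P i)) * ∏ i, ptn N v (mu0 N) (Qs i)))))) :=
          mul_le_mul_of_nonneg_left hsum hdlprod
      _ = kap v (Fintype.card ((Fin n → Fin (mk N (mu0 N))) × Gam N j k0)) * c₂ v *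
          ((∏ i, dl N v (P i) Q) * (∏ i, ptn N v (mu0 N) (P i)) *
            (∏ i, (dl N v (P i) Q * ptn N v (mu0 N) (P i)))⁻¹) *
          (supn v a * ∏ i, ptn N v (mu0 N) (Qs i)) := by ring
      _ = kap v (Fintype.card ((Fin n → Fin (mk N (mu0 N))) × Gam N j k0)) * c₂ v *
          (supn v a * ∏ i, ptn N v (mu0 N) (Qs i)) := by rw [hone, mul_one]
      _ ≤ kap v (Fintype.card ((Fin n → Fin (mk N (mu0 N))) × Gam N j k0)) * c₂ v *
          (c₁ v * nrm N v ((n + j) * mu0 N + k0) t') :=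
          mul_le_mul_of_nonneg_left ha (mul_nonneg hkap hc₂pos.le)
      _ = _ := by ring

end Fermat.Agent.S17
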