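import Fermat.Agent.S17.E.Decomp
import Fermat.Agent.S17.Curve.U4

/-!
# S17 / E3-KLb : the key local lemma, direction `U → A`   (proof: header of `E/KeyLocal.lean`)
-/

set_option autoImplicit false

open AlgebraicCurve ModularCurve IntermediateField

namespace Fermat.Agent.S17

open FF

variable {N : ℕ} [NeZero N]

namespace KLbAux

theorem one_le_mu0' : rc Kb (FN N) + 1 ≤ (mu0 N : ℤ) := by
  have := rc_add_two_le_mu0 (N := N)
  omega

/-- an index where `|pt_*(Q)|` is maximal -/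
theorem exists_star (v : PlQ) (Q : Pl N) :
    ∃ s : Fin (mk N (mu0 N)), absv v (pt N (mu0 N) Q s) = ptn N v (mu0 N) Q := by
  have hne : Nonempty (Fin (mk N (mu0 N))) := by
    by_contra h
    rw [not_nonempty_iff] at h
    exact pt_ne_zero one_le_mu0' Q (funext fun i => h.elim i)
  exact exists_absv_eq_supn v _

theorem absv_ev_sec_le (v : PlQ) (P Q : Pl N) (ik : Fin (mk N (mu0 N)) × Fin (mk N (mu0 N))) :
    absv v (ev N (mu0 N) Q (sec N P ik)) ≤ dl N v P Q * ptn N v (mu0 N) P * ptn N v (mu0 N) Q := by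
  rw [← supn_ev_sec]
  exact absv_le_supn v (fun ik => ev N (mu0 N) Q (sec N P ik)) ik

theorem koo_split (n j k0 : ℕ) :
    koo N ((n + j) * mu0 N + k0) = koo N (n * mu0 N) + koo N (j * mu0 N + k0) := by
  rw [← koo_add]
  congr 1
  ring

end KLbAux

open KLbAux

theorem KLb (n j : ℕ) {k0 : ℕ} (hk0 : rc Kb (FN N) + mu0 N ≤ k0) : ∃ c : CF, ∀ v,
    ∀ (P : Fin n → Pl N) (Qs : Fin j → Pl N) (Q : Pl N),
    ∀ t ∈ LSp (koo N ((n + j) * mu0 N + k0) - (tdiv P + tdiv Qs)),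
      ∃ t' ∈ LSp (koo N ((n + j) * mu0 N + k0) - tdiv Qs),
        t - t' ∈ LSp (koo N ((n + j) * mu0 N + k0) - (tdiv Qs + pdiv Q)) ∧
        nrm N v ((n + j) * mu0 N + k0) t' ≤
          c v * ((∏ i, dl N v (P i) Q) * nrm N v ((n + j) * mu0 N + k0) t) := by
  obtain ⟨c₁, hc₁⟩ := U4 (N := N) (n + j) hk0
  obtain ⟨c₂, hc₂⟩ := U0_monoB_fam (N := N) n j k0
  refine ⟨CF.ofNat (Fintype.card (Gam N (n + j) k0)) * c₂ * c₁, fun v P Qs Q t ht => ?_⟩
  -- `U4`
  have ht' : t ∈ LSp (koo N ((n + j) * mu0 N + k0) - tdiv (Fin.append P Qs)) := by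
    rw [tdiv_append]; exact ht
  obtain ⟨a, hta, ha⟩ := hc₁ v (Fin.append P Qs) t ht'
  obtain ⟨s, hs⟩ := exists_star v Q
  have hQpos : 0 < ptn N v (mu0 N) Q := ptn_pos one_le_mu0' v Q
  have hs0 : pt N (mu0 N) Q s ≠ 0 := by
    intro h
    rw [h, map_zero] at hs
    exact hQpos.ne hs
  -- notation
  let S : Gam N (n + j) k0 → FN N := fun γ => ∏ i : Fin n, sec N (P i) (γ.1 (Fin.castAdd j i))
  let cc : Gam N (n + j) k0 → FN N := fun γ => fam j k0 Qs (fun i => γ.1 (Fin.natAdd n i), γ.2)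
  let lam : Gam N (n + j) k0 → Fin n → Kb := fun γ i =>
    ev N (mu0 N) Q (sec N (P i) (γ.1 (Fin.castAdd j i))) / pt N (mu0 N) Q s
  let Lam : Gam N (n + j) k0 → Kb := fun γ => ∏ i, lam γ i
  let M : FN N := monoB N (fun _ : Fin n => s)
  have hfam : ∀ γ, fam (n + j) k0 (Fin.append P Qs) γ = S γ * cc γ :=
    fun γ => fam_append n j k0 P Qs γ
  have hM : M ∈ Lk N (n * mu0 N) := monoB_mem _
  have hS : ∀ γ, S γ ∈ Lk N (n * mu0 N) ∧ ev N (n * mu0 N) Q (S γ) =
      ∏ i, ev N (mu0 N) Q (sec N (P i) (γ.1 (Fin.castAdd j i))) :=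
    fun γ => ev_prod Q _ (fun i => secx_mem _ _)
  have hMev : ev N (n * mu0 N) Q M = ∏ _i : Fin n, pt N (mu0 N) Q s :=
    (ev_prod Q (fun _ : Fin n => (bas N (mu0 N) s : FN N)) (fun _ => (bas N (mu0 N) s).2)).2
  have hcc : ∀ γ, cc γ ∈ LSp (koo N (j * mu0 N + k0) - tdiv Qs) := fun γ => fam_mem j k0 Qs _
  -- vanishing at `Q`
  have hvan : ∀ γ, S γ - Lam γ • M ∈ LSp (koo N (n * mu0 N) - pdiv Q) := by
    intro γ
    have hmem : S γ - Lam γ • M ∈ Lk N (n * mu0 N) :=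
      Submodule.sub_mem _ (hS γ).1 (Submodule.smul_mem _ _ hM)
    rw [← ev_eq_zero_iff Q hmem, sub_eq_add_neg, ← neg_smul,
      ev_add Q (hS γ).1 (Submodule.smul_mem _ _ hM), ev_smul Q _ hM, (hS γ).2, hMev]
    have : Lam γ * ∏ _i : Fin n, pt N (mu0 N) Q s =
        ∏ i, ev N (mu0 N) Q (sec N (P i) (γ.1 (Fin.castAdd j i))) := by
      rw [← Finset.prod_mul_distrib]
      exact Finset.prod_congr rfl fun i _ => div_mul_cancel₀ _ hs0
    rw [neg_mul, this, add_neg_cancel]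
  have hD1 : koo N ((n + j) * mu0 N + k0) - tdiv Qs =
      koo N (n * mu0 N) + (koo N (j * mu0 N + k0) - tdiv Qs) := by
    rw [koo_split]; abel
  have hD2 : koo N ((n + j) * mu0 N + k0) - (tdiv Qs + pdiv Q) =
      (koo N (n * mu0 N) - pdiv Q) + (koo N (j * mu0 N + k0) - tdiv Qs) := by
    rw [koo_split]; abel
  have hMcc : ∀ γ, M * cc γ ∈ LSp (koo N ((n + j) * mu0 N + k0) - tdiv Qs) := by
    intro γ
    rw [hD1]
    exact mul_mem_LSp hM (hcc γ)
  have hterm : ∀ γ, a γ • (Lam γ • (M * cc γ)) ∈ LSp (koo N ((n + j) * mu0 N + k0) - tdiv Qs) :=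
    fun γ => Submodule.smul_mem _ _ (Submodule.smul_mem _ _ (hMcc γ))
  refine ⟨∑ γ, a γ • (Lam γ • (M * cc γ)), Submodule.sum_mem _ fun γ _ => hterm γ, ?_, ?_⟩
  · -- the difference vanishes at `Q`
    have hdiff : t - ∑ γ, a γ • (Lam γ • (M * cc γ)) =
        ∑ γ, a γ • ((S γ - Lam γ • M) * cc γ) := by
      rw [hta, ← Finset.sum_sub_distrib]
      refine Finset.sum_congr rfl fun γ _ => ?_
      rw [hfam, sub_mul, smul_mul_assoc, smul_sub]
    rw [hdiff, hD2]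
    exact Submodule.sum_mem _ fun γ _ => Submodule.smul_mem _ _ (mul_mem_LSp (hvan γ) (hcc γ))
  · -- the norm estimate
    have hdl : ∀ i, 0 ≤ dl N v (P i) Q := fun i => dl_nonneg v _ _
    have hptnP : ∀ i, 0 ≤ ptn N v (mu0 N) (P i) := fun i => supn_nonneg _ _
    have hptnQ : ∀ i, 0 ≤ ptn N v (mu0 N) (Qs i) := fun i => supn_nonneg _ _
    have hlam : ∀ γ i, absv v (lam γ i) ≤ dl N v (P i) Q * ptn N v (mu0 N) (P i) := by
      intro γ i
      show absv v (_ / _) ≤ _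
      rw [map_div₀, hs, div_le_iff₀ hQpos]
      exact absv_ev_sec_le v (P i) Q _
    have hLam : ∀ γ, absv v (Lam γ) ≤ ∏ i, (dl N v (P i) Q * ptn N v (mu0 N) (P i)) := by
      intro γ
      show absv v (∏ i, lam γ i) ≤ _
      rw [map_prod]
      exact Finset.prod_le_prod (fun i _ => (absv v).nonneg _) (fun i _ => hlam γ i)
    have hc₂pos := c₂.pos v
    have hprodP : 0 ≤ ∏ i, (dl N v (P i) Q * ptn N v (mu0 N) (P i)) :=
      Finset.prod_nonneg fun i _ => mul_nonneg (hdl i) (hptnP i)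
    have hprodQ : 0 ≤ ∏ i, ptn N v (mu0 N) (Qs i) := Finset.prod_nonneg fun i _ => hptnQ i
    have hsum := nrm_sum_le v (k := (n + j) * mu0 N + k0) Finset.univ
      (fun γ => a γ • (Lam γ • (M * cc γ)))
      (fun γ _ => LSp_sub_le_Lk _ (tdiv_nonneg Qs) (hterm γ))
      (r := supn v a * ((∏ i, (dl N v (P i) Q * ptn N v (mu0 N) (P i))) *
        (c₂ v * ∏ i, ptn N v (mu0 N) (Qs i))))
      (mul_nonneg (supn_nonneg _ _) (mul_nonneg hprodP (mul_nonneg hc₂pos.le hprodQ)))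
      (by
        intro γ _
        rw [nrm_smul, nrm_smul]
        refine mul_le_mul (absv_le_supn v a γ) ?_
          (mul_nonneg ((absv v).nonneg _) (nrm_nonneg _ _ _)) (supn_nonneg _ _)
        exact mul_le_mul (hLam γ) (hc₂ v Qs _ _) (nrm_nonneg _ _ _) hprodP)
    refine hsum.trans ?_
    have hsplit : ∏ l, ptn N v (mu0 N) (Fin.append P Qs l) =
        (∏ i, ptn N v (mu0 N) (P i)) * ∏ i, ptn N v (mu0 N) (Qs i) := by
      rw [Fin.prod_univ_add]
      simp only [Fin.append_left, Fin.append_right]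
    rw [hsplit] at ha
    have hkap : 0 ≤ kap v (Finset.univ : Finset (Gam N (n + j) k0)).card :=
      (zero_le_one.trans ((CF.ofNat _).one_le v))
    have hdlprod : 0 ≤ ∏ i, dl N v (P i) Q := Finset.prod_nonneg fun i _ => hdl i
    show _ ≤ kap v (Fintype.card (Gam N (n + j) k0)) * c₂ v * c₁ v * _
    rw [Finset.card_univ, Finset.prod_mul_distrib]
    calc kap v (Fintype.card (Gam N (n + j) k0)) * (supn v a *
          (((∏ i, dl N v (P i) Q) * ∏ i, ptn N v (mu0 N) (P i)) *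
            (c₂ v * ∏ i, ptn N v (mu0 N) (Qs i))))
        = kap v (Fintype.card (Gam N (n + j) k0)) * c₂ v * (∏ i, dl N v (P i) Q) *
          (supn v a * ((∏ i, ptn N v (mu0 N) (P i)) * ∏ i, ptn N v (mu0 N) (Qs i))) := by ring
      _ ≤ kap v (Fintype.card (Gam N (n + j) k0)) * c₂ v * (∏ i, dl N v (P i) Q) *
          (c₁ v * nrm N v ((n + j) * mu0 N + k0) t) := by
          refine mul_le_mul_of_nonneg_left ha ?_
          rw [Finset.card_univ] at hkap
          exact mul_nonneg (mul_nonneg hkap hc₂pos.le) hdlprod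
      _ = _ := by ring

end Fermat.Agent.S17
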