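import Fermat.Agent.S17.E.Decomp
import Fermat.Agent.S17.E.KLb
import Fermat.Agent.S17.E.KLa

/-!
# S17 / E3-KL : the key local lemma

`P = (P_i)_{i<n}`, `B` effective of degree `j < n`, `Q` a place, `μ` big.  `U = L(μ∞ - ∑P - B)`, `A = L(μ∞ - B)`.
Passing from `A / L(μ∞ - B - Q)` to `U / L(μ∞ - ∑P - B - Q)` (both of dimension one, the second maps isomorphically to the first if
`Q ∉ P`) multiplies the quotient norm by `∏_i δ_v(P_i, Q)^{-1}` up to a constant family.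

## KLb  (`U → A`)
`t ∈ U`.  `U4` for the tuple `Fin.append P Qs` (`tdiv_append`, `fam_append`):
`t = ∑_γ a_γ (∏_i sec (P_i) γ_i) c_γ`, `c_γ = fam j k₀ Qs γ' ∈ L((jμ₀+k₀)∞ - B)`, `|a| ∏|pt P_i| ∏|pt Qs_i| ≤ c_v |t|`.
Let `*` be an index with `|pt_*(Q)| = |pt Q|` (`exists_absv_eq_supn`; `≠ 0` by `ptn_pos`), `λ_{i,γ} := ev_Q(sec (P_i) γ_i) / pt_*(Q)`,
so `|λ_{i,γ}| ≤ δ(P_i,Q) |pt P_i|` (`supn_ev_sec`, `absv_le_supn`).  By `ev_prod` the section
`∏_i sec (P_i) γ_i - (∏_i λ_{i,γ}) b_*^n` of `O(nμ₀∞)` vanishes at `Q`, i.e. lies in `L(nμ₀∞ - Q)` (`ev_eq_zero_iff`); times `c_γ` it lies in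
`L(μ∞ - B - Q)` (`mul_mem_LSp`).  `t' := ∑_γ a_γ (∏_i λ_{i,γ}) b_*^n c_γ`; `|b_*^n c_γ| ≤ c_v ∏|pt Qs_i|` (`U0_monoB_fam`, `β = const *`), `nrm_sum_le`.

## KLa  (`A → U`), `Q ≠ P_i`
`t' ∈ A`.  `BD`: `t' = ∑_{β,γ} a_{β,γ} (∏_i b_{β i}) c_γ`.  Let `γ*_i` be an index with `|ev_Q(sec (P_i) γ*_i)| = δ(P_i,Q)|pt P_i||pt Q| ≠ 0`,
`ν_{i,β} := pt_{β i}(Q) / ev_Q(sec (P_i) γ*_i)`, `|ν_{i,β}| ≤ 1/(δ(P_i,Q)|pt P_i|)`.
`t := ∑ a_{β,γ} (∏_i ν_{i,β}) (∏_i sec (P_i) γ*_i) c_γ ∈ U`, `t' - t ∈ L(μ∞ - B - Q)` as before,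
`|(∏_i sec (P_i) γ*_i) c_γ| ≤ c_v ∏|pt P_i| ∏|pt Qs_i|` (`U0_fam` for `Fin.append P Qs` + `fam_append`).
-/

set_option autoImplicit false

open AlgebraicCurve ModularCurve IntermediateField

namespace Fermat.Agent.S17

open FF

variable {N : ℕ} [NeZero N]

/-- `L(D - ∑P - B) ∩ L(D - B - Q) = L(D - ∑P - B - Q)` if `Q ∉ P`. -/
theorem mem_LSp_inter {n : ℕ} {k : ℕ} (P : Fin n → Pl N) (B : Dv N) (Q : Pl N) (hQ : ∀ i, P i ≠ Q) {f : FN N}
    (h1 : f ∈ LSp (koo N k - (tdiv P + B))) (h2 : f ∈ LSp (koo N k - (B + pdiv Q))) :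
    f ∈ LSp (koo N k - (tdiv P + B + pdiv Q)) := by
  rw [mem_LSp] at h1 h2 ⊢
  rcases h1 with h1 | h1
  · exact Or.inl h1
  rcases h2 with h2 | h2
  · exact Or.inl h2
  right
  intro v
  by_cases hv : v = Q
  · subst hv
    have h3 := h2 v
    have h4 : tdiv P v = 0 := (tdiv_apply_eq_zero_iff P v).2 hQ
    simp only [Finsupp.coe_sub, Finsupp.coe_add, Pi.sub_apply, Pi.add_apply] at h3 ⊢
    rw [h4]
    omega
  · have h3 := h1 v
    have h4 : pdiv Q v = 0 := Finsupp.single_eq_of_ne hv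
    simp only [Finsupp.coe_sub, Finsupp.coe_add, Pi.sub_apply, Pi.add_apply] at h3 ⊢
    rw [h4]
    omega

/-- **KL**, distance form, fixed number `j` of points of `B`.  From `KLa`, `KLb`, `distn_crd_le`, `le_distn_crd`, `mem_LSp_inter`:
* for `z ∈ L(μ∞-∑P-B-Q)`: `t := y - z`, `t'` from `KLb`: `y - t' ∈ L(μ∞-B-Q)`, so `dist(y, L(μ∞-B-Q)) ≤ |t'| ≤ c ∏δ |y - z|`;
* for `z' ∈ L(μ∞-B-Q)`: `t' := y - z'`, `t` from `KLa`: `y - t ∈ L(μ∞-∑P-B) ∩ L(μ∞-B-Q)`, so `∏δ dist(y, L(μ∞-∑P-B-Q)) ≤ ∏δ |t| ≤ c |y - z'|`. -/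
theorem KL_aux (n j : ℕ) {k0 : ℕ} (hk0 : rc Kb (FN N) + mu0 N ≤ k0) : ∃ c : CF, ∀ v,
    ∀ (P : Fin n → Pl N) (Qs : Fin j → Pl N) (Q : Pl N), (∀ i, P i ≠ Q) →
    ∀ y ∈ LSp (koo N ((n + j) * mu0 N + k0) - (tdiv P + tdiv Qs)),
      distn v (crd N ((n + j) * mu0 N + k0) y) (cS N ((n + j) * mu0 N + k0) (tdiv Qs + pdiv Q)) ≤
        c v * ((∏ i, dl N v (P i) Q) *
          distn v (crd N ((n + j) * mu0 N + k0) y) (cS N ((n + j) * mu0 N + k0) (tdiv P + tdiv Qs + pdiv Q))) ∧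
      (∏ i, dl N v (P i) Q) *
          distn v (crd N ((n + j) * mu0 N + k0) y) (cS N ((n + j) * mu0 N + k0) (tdiv P + tdiv Qs + pdiv Q)) ≤
        c v * distn v (crd N ((n + j) * mu0 N + k0) y) (cS N ((n + j) * mu0 N + k0) (tdiv Qs + pdiv Q)) := by
  obtain ⟨ca, hca⟩ := KLa (N := N) n j hk0
  obtain ⟨cb, hcb⟩ := KLb (N := N) n j hk0
  refine ⟨ca * cb, fun v P Qs Q hQ y hy => ?_⟩
  set μ := (n + j) * mu0 N + k0 with hμ
  set Pd := ∏ i, dl N v (P i) Q with hPd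
  have hPdpos : 0 < Pd := Finset.prod_pos fun i _ =>
    lt_of_le_of_ne (dl_nonneg v _ _) (fun h => hQ i ((dl_eq_zero_iff v _ _).1 h.symm))
  have hP0 : 0 ≤ tdiv P := tdiv_nonneg P
  have hQs0 : 0 ≤ tdiv Qs := tdiv_nonneg Qs
  have hQ0 : (0 : Dv N) ≤ pdiv Q := Finsupp.single_nonneg.2 zero_le_one
  have hD1 : (0 : Dv N) ≤ tdiv Qs + pdiv Q := add_nonneg hQs0 hQ0
  have hD2 : (0 : Dv N) ≤ tdiv P + tdiv Qs + pdiv Q := add_nonneg (add_nonneg hP0 hQs0) hQ0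
  have hyL : y ∈ Lk N μ := LSp_sub_le_Lk μ (add_nonneg hP0 hQs0) hy
  -- inclusions
  have i21 : LSp (koo N μ - (tdiv P + tdiv Qs + pdiv Q)) ≤ LSp (koo N μ - (tdiv Qs + pdiv Q)) :=
    LSp_mono (sub_le_sub_left (by
      rw [add_assoc]; exact le_add_of_nonneg_left hP0) _)
  have i2PQ : LSp (koo N μ - (tdiv P + tdiv Qs + pdiv Q)) ≤ LSp (koo N μ - (tdiv P + tdiv Qs)) :=
    LSp_mono (sub_le_sub_left (le_add_of_nonneg_right hQ0) _)
  have iPQQ : LSp (koo N μ - (tdiv P + tdiv Qs)) ≤ LSp (koo N μ - tdiv Qs) :=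
    LSp_mono (sub_le_sub_left (le_add_of_nonneg_left hP0) _)
  have i1Q : LSp (koo N μ - (tdiv Qs + pdiv Q)) ≤ LSp (koo N μ - tdiv Qs) :=
    LSp_mono (sub_le_sub_left (le_add_of_nonneg_right hQ0) _)
  have hca1 := ca.one_le v
  have hcb1 := cb.one_le v
  have hcapos := ca.pos v
  have hcbpos := cb.pos v
  rw [CF.mul_apply]
  constructor
  · -- first inequality, from `KLb`
    have key : distn v (crd N μ y) (cS N μ (tdiv Qs + pdiv Q)) / (ca v * cb v * Pd) ≤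
        distn v (crd N μ y) (cS N μ (tdiv P + tdiv Qs + pdiv Q)) := by
      refine le_distn_crd v hD2 hyL fun z hz => ?_
      obtain ⟨t', ht', htt', hn⟩ := hcb v P Qs Q (y - z) (Submodule.sub_mem _ hy (i2PQ hz))
      have hz'' : y - t' ∈ LSp (koo N μ - (tdiv Qs + pdiv Q)) := by
        have : y - t' = (y - z - t') + z := by ring
        rw [this]
        exact Submodule.add_mem _ htt' (i21 hz)
      have h1 := distn_crd_le v hD1 hyL hz''
      rw [sub_sub_cancel] at h1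
      rw [div_le_iff₀ (by positivity)]
      calc distn v (crd N μ y) (cS N μ (tdiv Qs + pdiv Q)) ≤ nrm N v μ t' := h1
        _ ≤ cb v * (Pd * nrm N v μ (y - z)) := hn
        _ ≤ ca v * (cb v * (Pd * nrm N v μ (y - z))) :=
            le_mul_of_one_le_left (by have := nrm_nonneg (N := N) v μ (y - z); positivity) hca1
        _ = nrm N v μ (y - z) * (ca v * cb v * Pd) := by ring
    rw [div_le_iff₀ (by positivity)] at key
    calc _ ≤ _ := key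
      _ = _ := by ring
  · -- second inequality, from `KLa`
    have key : Pd * distn v (crd N μ y) (cS N μ (tdiv P + tdiv Qs + pdiv Q)) / (ca v * cb v) ≤
        distn v (crd N μ y) (cS N μ (tdiv Qs + pdiv Q)) := by
      refine le_distn_crd v hD1 hyL fun z' hz' => ?_
      obtain ⟨t, ht, htt', hn⟩ := hca v P Qs Q hQ (y - z')
        (Submodule.sub_mem _ (iPQQ hy) (i1Q hz'))
      have hz1 : y - t ∈ LSp (koo N μ - (tdiv P + tdiv Qs)) := Submodule.sub_mem _ hy ht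
      have hz2 : y - t ∈ LSp (koo N μ - (tdiv Qs + pdiv Q)) := by
        have : y - t = (y - z' - t) + z' := by ring
        rw [this]
        exact Submodule.add_mem _ htt' hz'
      have hz : y - t ∈ LSp (koo N μ - (tdiv P + tdiv Qs + pdiv Q)) :=
        mem_LSp_inter P (tdiv Qs) Q hQ hz1 hz2
      have h1 := distn_crd_le v hD2 hyL hz
      rw [sub_sub_cancel] at h1
      rw [div_le_iff₀ (by positivity)]
      calc Pd * distn v (crd N μ y) (cS N μ (tdiv P + tdiv Qs + pdiv Q)) ≤ Pd * nrm N v μ t := by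
            gcongr
        _ ≤ ca v * nrm N v μ (y - z') := hn
        _ ≤ cb v * (ca v * nrm N v μ (y - z')) :=
            le_mul_of_one_le_left (by have := nrm_nonneg (N := N) v μ (y - z'); positivity) hcb1
        _ = nrm N v μ (y - z') * (ca v * cb v) := by ring
    rw [div_le_iff₀ (by positivity)] at key
    calc _ ≤ _ := key
      _ = _ := by ring

/-- `KL_aux` at a general level `μ`. -/
theorem KL_level (n j μ : ℕ) (hj : j < n) (hμ : BigLevel N n μ) : ∃ c : CF, ∀ v,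
    ∀ (P : Fin n → Pl N) (Qs : Fin j → Pl N) (Q : Pl N), (∀ i, P i ≠ Q) →
    ∀ y ∈ LSp (koo N μ - (tdiv P + tdiv Qs)),
      distn v (crd N μ y) (cS N μ (tdiv Qs + pdiv Q)) ≤
        c v * ((∏ i, dl N v (P i) Q) * distn v (crd N μ y) (cS N μ (tdiv P + tdiv Qs + pdiv Q))) ∧
      (∏ i, dl N v (P i) Q) * distn v (crd N μ y) (cS N μ (tdiv P + tdiv Qs + pdiv Q)) ≤
        c v * distn v (crd N μ y) (cS N μ (tdiv Qs + pdiv Q)) := by
  unfold BigLevel at hμ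
  have h1 : (n + j) * mu0 N + (mu0 N + (rc Kb (FN N)).toNat) ≤ μ := by
    have h2 : (n + j) * mu0 N + mu0 N ≤ (2 * n + 1) * mu0 N := by
      have : (n + j) * mu0 N + mu0 N = (n + j + 1) * mu0 N := by ring
      rw [this]
      exact Nat.mul_le_mul_right _ (by omega)
    omega
  obtain ⟨k0, rfl⟩ := Nat.exists_eq_add_of_le (show (n + j) * mu0 N ≤ μ by omega)
  have hk0 : rc Kb (FN N) + mu0 N ≤ k0 := by
    have h3 : mu0 N + (rc Kb (FN N)).toNat ≤ k0 := by omega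
    have h4 := Int.self_le_toNat (rc Kb (FN N))
    omega
  exact KL_aux n j hk0

/-- **KL**, final form: all effective `B` of degree `< n`, level `μ`.  (For each `j < n` write `μ = (n + j) μ₀ + k₀` (`Nat.exists_eq_add_of_le`, `subst`),
`B = tdiv Qs` (`exists_tdiv_eq`), take the product of the `n` constant families (`ULemma.exists_CF_ge_finset`).) -/
theorem KL (n μ : ℕ) (hμ : BigLevel N n μ) : ∃ c : CF, ∀ v,
    ∀ (P : Fin n → Pl N) (B : Dv N) (Q : Pl N), 0 ≤ B → Divisor.degree B < n → (∀ i, P i ≠ Q) →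
    ∀ y ∈ LSp (koo N μ - (tdiv P + B)),
      distn v (crd N μ y) (cS N μ (B + pdiv Q)) ≤
        c v * ((∏ i, dl N v (P i) Q) * distn v (crd N μ y) (cS N μ (tdiv P + B + pdiv Q))) ∧
      (∏ i, dl N v (P i) Q) * distn v (crd N μ y) (cS N μ (tdiv P + B + pdiv Q)) ≤
        c v * distn v (crd N μ y) (cS N μ (B + pdiv Q)) := by
  choose c hc using fun j : Fin n => KL_level (N := N) n j μ j.2 hμ
  obtain ⟨C, hC⟩ := ULemma.exists_CF_ge_finset Finset.univ c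
  refine ⟨C, fun v P B Q hB hdeg hQ y hy => ?_⟩
  have hd0 := LBasic.degree_nonneg hB
  obtain ⟨j, hj⟩ : ∃ j : ℕ, Divisor.degree B = (j : ℤ) := ⟨_, (Int.toNat_of_nonneg hd0).symm⟩
  have hjn : j < n := by
    rw [hj] at hdeg
    exact_mod_cast hdeg
  obtain ⟨Qs, rfl⟩ := exists_tdiv_eq hB hj
  obtain ⟨h1, h2⟩ := hc ⟨j, hjn⟩ v P Qs Q hQ y hy
  have hle := hC ⟨j, hjn⟩ (Finset.mem_univ _) v
  have hPd : 0 ≤ ∏ i, dl N v (P i) Q := Finset.prod_nonneg fun i _ => dl_nonneg v _ _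
  refine ⟨h1.trans ?_, h2.trans ?_⟩
  · exact mul_le_mul_of_nonneg_right hle (mul_nonneg hPd (distn_nonneg _ _ _))
  · exact mul_le_mul_of_nonneg_right hle (distn_nonneg _ _ _)

end Fermat.Agent.S17
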