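import Fermat.Agent.S17.E.KeyLocal
import Fermat.Agent.S17.E.Chain

/-!
# S17 / E3-LT : the local filtration formula

`|t| |t ∧ s₋ ∧ s₊| ~ ∏_{i,j} δ_v(P_i,Q_j) |t ∧ s₊| |t ∧ s₋|`, where `t` spans `L(μ∞-∑P-∑Q)`, `(t,s₋)` spans `L(μ∞-∑Q)`, `s₊ ⊆ L(μ∞-∑P)`.

PROOF.  `y` from `exists_adapted`.
1. `wedgen_append_chain` with `x = crd ∘ t`, `S a = cS μ (tdiv P + tailDiv Q a)`:  `|t ∧ y| ~ |t| ∏_a dist(y_a, U_a)`.
2. `wedgen_append_chain` with `x = crd ∘ (t,s₋)`, `S a = cS μ (tailDiv Q a)`:  `|t ∧ s₋ ∧ y| ~ |t ∧ s₋| ∏_a dist(y_a, A_a)`.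
3. `KL` with `B = tailDiv Q (a+1)`, `Q = Q_a` (`tailDiv_succ`):  `dist(y_a, A_a) ~ ∏_i δ(P_i,Q_a) dist(y_a, U_a)`.
   Hence the formula for `s₊ = y`, with the constant `kap v (mk μ)^n * c_v^n`.
4. `(t,y)` spans `L(μ∞-∑P)` (step 1: `S n`), so `s₊ = B y + C t`; `wedgen_append_change` twice (`C' = (C, 0)` the second time): both sides are
   multiplied by `|det B|`.
(`crd` of `Fin.append`: `(fun a => crd (Fin.append t s a)) = Fin.append (crd ∘ t) (crd ∘ s)`, `Fin.append_comp'`-like lemma.)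
-/

set_option autoImplicit false

open AlgebraicCurve ModularCurve IntermediateField

namespace Fermat.Agent.S17

open FF

variable {N : ℕ} [NeZero N]

namespace LocalLT

theorem comp_append {α β : Type*} (g : α → β) {m n : ℕ} (u : Fin m → α) (u' : Fin n → α) :
    (fun a => g (Fin.append u u' a)) = Fin.append (fun a => g (u a)) (fun a => g (u' a)) := by
  funext a
  refine Fin.addCases (fun i => ?_) (fun i => ?_) a <;> simp

theorem range_append {α : Type*} {m n : ℕ} (u : Fin m → α) (u' : Fin n → α) :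
    Set.range (Fin.append u u') = Set.range u ∪ Set.range u' := by
  ext z
  constructor
  · rintro ⟨a, rfl⟩
    refine Fin.addCases (fun i => ?_) (fun i => ?_) a
    · left; exact ⟨i, by simp⟩
    · right; exact ⟨i, by simp⟩
  · rintro (⟨i, rfl⟩ | ⟨i, rfl⟩)
    · exact ⟨Fin.castAdd n i, by simp⟩
    · exact ⟨Fin.natAdd m i, by simp⟩

/-- the end of a chain is the span of everything -/
theorem span_append_chain {V : Type*} [AddCommGroup V] [Module Kb V] {w n : ℕ} (x : Fin w → V)
    (y : Fin n → V) (S : ℕ → Submodule Kb V) (h0 : S 0 = Submodule.span Kb (Set.range x))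
    (hS : ∀ a : Fin n, S (a + 1) = S a ⊔ Submodule.span Kb {y a}) :
    Submodule.span Kb (Set.range (Fin.append x y)) = S n := by
  have key : ∀ m : ℕ, m ≤ n → S m = S 0 ⊔ Submodule.span Kb {z | ∃ a : Fin n, a.val < m ∧ y a = z} := by
    intro m
    induction m with
    | zero =>
      intro _
      have : {z | ∃ a : Fin n, a.val < 0 ∧ y a = z} = (∅ : Set V) := by
        ext z; simp
      rw [this, Submodule.span_empty, sup_bot_eq]
    | succ m ih =>
      intro hm
      have h1 := hS ⟨m, hm⟩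
      simp only at h1
      rw [h1, ih (by omega), sup_assoc, ← Submodule.span_union]
      congr 2
      ext z
      simp only [Set.mem_union, Set.mem_ofPred_eq, Set.mem_singleton_iff]
      constructor
      · rintro (⟨a, ha, rfl⟩ | rfl)
        · exact ⟨a, by omega, rfl⟩
        · exact ⟨⟨m, hm⟩, by simp, rfl⟩
      · rintro ⟨a, ha, rfl⟩
        rcases Nat.lt_succ_iff_lt_or_eq.mp ha with h | h
        · left; exact ⟨a, h, rfl⟩
        · right
          congr 1
          exact Fin.ext h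
  rw [key n le_rfl, h0, range_append, Submodule.span_union]
  congr 2
  ext z
  simp only [Set.mem_range, Set.mem_ofPred_eq]
  constructor
  · rintro ⟨a, rfl⟩
    exact ⟨a, a.2, rfl⟩
  · rintro ⟨a, _, rfl⟩
    exact ⟨a, rfl⟩

end LocalLT

open LocalLT

/-- the formula for the adapted family -/
theorem LT_adapted (n μ : ℕ) (hμ : BigLevel N n μ) : ∃ c : CF, ∀ v, ∀ (P Q : Fin n → Pl N), (∀ i j, P i ≠ Q j) →
    ∀ (w : ℕ) (t : Fin w → FN N) (sm y : Fin n → FN N), w + 2 * n = mk N μ →
      Submodule.span Kb (Set.range t) = LSp (koo N μ - (tdiv P + tdiv Q)) →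
      Submodule.span Kb (Set.range (Fin.append t sm)) = LSp (koo N μ - tdiv Q) →
      (∀ a : Fin n, y a ∈ LSp (koo N μ - (tdiv P + tailDiv Q (a + 1)))) →
      (∀ a : Fin n, cS N μ (tdiv P + tailDiv Q (a + 1)) =
        cS N μ (tdiv P + tailDiv Q a) ⊔ Submodule.span Kb {crd N μ (y a)}) →
      (∀ a : Fin n, cS N μ (tailDiv Q (a + 1)) =
        cS N μ (tailDiv Q a) ⊔ Submodule.span Kb {crd N μ (y a)}) →
      wedgen v (fun a => crd N μ (t a)) * wedgen v (fun a => crd N μ (Fin.append (Fin.append t sm) y a)) ≤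
        c v * ((∏ i, ∏ j, dl N v (P i) (Q j)) *
          (wedgen v (fun a => crd N μ (Fin.append t y a)) * wedgen v (fun a => crd N μ (Fin.append t sm a)))) ∧
      (∏ i, ∏ j, dl N v (P i) (Q j)) *
          (wedgen v (fun a => crd N μ (Fin.append t y a)) * wedgen v (fun a => crd N μ (Fin.append t sm a))) ≤
        c v * (wedgen v (fun a => crd N μ (t a)) *
          wedgen v (fun a => crd N μ (Fin.append (Fin.append t sm) y a))) := by
  obtain ⟨c, hc⟩ := KL (N := N) n μ hμ
  refine ⟨(CF.ofNat (mk N μ)).npow n * c.npow n, fun v P Q hPQ w t sm y hw ht hsm hy hU hA => ?_⟩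
  -- notation
  set x : Fin w → Fin (mk N μ) → Kb := fun a => crd N μ (t a) with hx
  set x2 : Fin (w + n) → Fin (mk N μ) → Kb := fun a => crd N μ (Fin.append t sm a) with hx2
  set y' : Fin n → Fin (mk N μ) → Kb := fun a => crd N μ (y a) with hy'
  have e1 : (fun a => crd N μ (Fin.append t y a)) = Fin.append x y' := comp_append _ t y
  have e2 : (fun a => crd N μ (Fin.append (Fin.append t sm) y a)) = Fin.append x2 y' :=
    comp_append _ (Fin.append t sm) y
  rw [e1, e2]
  -- the two chains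
  have hPQ0 : (0 : Dv N) ≤ tdiv P + tdiv Q := add_nonneg (tdiv_nonneg P) (tdiv_nonneg Q)
  obtain ⟨c1a, c1b⟩ := wedgen_append_chain v x y' (fun a => cS N μ (tdiv P + tailDiv Q a))
    (by
      simp only [tailDiv_zero]
      exact (span_crd_eq_cS hPQ0 t ht).symm)
    (fun a => hU a)
  obtain ⟨c2a, c2b⟩ := wedgen_append_chain v x2 y' (fun a => cS N μ (tailDiv Q a))
    (by
      simp only [tailDiv_zero]
      exact (span_crd_eq_cS (tdiv_nonneg Q) _ hsm).symm)
    (fun a => hA a)
  set d1 : Fin n → ℝ := fun a => distn v (y' a) (cS N μ (tdiv P + tailDiv Q a)) with hd1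
  set d2 : Fin n → ℝ := fun a => distn v (y' a) (cS N μ (tailDiv Q a)) with hd2
  set Δ : Fin n → ℝ := fun a => ∏ i, dl N v (P i) (Q a) with hΔ
  have hΔ0 : ∀ a, 0 ≤ Δ a := fun a => Finset.prod_nonneg fun i _ => dl_nonneg v _ _
  have hd10 : ∀ a, 0 ≤ d1 a := fun a => distn_nonneg _ _ _
  have hd20 : ∀ a, 0 ≤ d2 a := fun a => distn_nonneg _ _ _
  have hKL : ∀ a : Fin n, d2 a ≤ c v * (Δ a * d1 a) ∧ Δ a * d1 a ≤ c v * d2 a := by
    intro a
    have hdeg : Divisor.degree (tailDiv Q (a + 1)) < n := by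
      rw [degree_tailDiv]
      have := a.2
      omega
    have h := hc v P (tailDiv Q (a + 1)) (Q a) (tailDiv_nonneg Q _) hdeg (fun i => hPQ i a) (y a) (hy a)
    rw [add_assoc, ← tailDiv_succ Q a] at h
    exact h
  have hprodΔ : (∏ i, ∏ j, dl N v (P i) (Q j)) = ∏ a, Δ a := Finset.prod_comm
  rw [hprodΔ]
  have hk0 : 0 ≤ kap v (mk N μ) := zero_le_one.trans (one_le_kap v _)
  have hkap1 : kap v (w + n) ^ n ≤ kap v (mk N μ) ^ n :=
    pow_le_pow_left₀ (zero_le_one.trans (one_le_kap v _)) (kap_mono v (by omega)) n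
  have hkap2 : kap v (w + n + n) ^ n ≤ kap v (mk N μ) ^ n :=
    pow_le_pow_left₀ (zero_le_one.trans (one_le_kap v _)) (kap_mono v (by omega)) n
  have hC : ((CF.ofNat (mk N μ)).npow n * c.npow n) v = kap v (mk N μ) ^ n * c v ^ n := rfl
  rw [hC]
  have hx0 : 0 ≤ wedgen v x := wedgen_nonneg v x
  have hx20 : 0 ≤ wedgen v x2 := wedgen_nonneg v x2
  have hP1 : ∏ a, d2 a ≤ c v ^ n * ((∏ a, Δ a) * ∏ a, d1 a) := by
    calc ∏ a, d2 a ≤ ∏ a : Fin n, c v * (Δ a * d1 a) :=
          Finset.prod_le_prod (fun a _ => hd20 a) (fun a _ => (hKL a).1)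
      _ = c v ^ n * ((∏ a, Δ a) * ∏ a, d1 a) := by
          rw [Finset.prod_mul_distrib, Finset.prod_mul_distrib]; simp
  have hP2 : (∏ a, Δ a) * ∏ a, d1 a ≤ c v ^ n * ∏ a, d2 a := by
    calc (∏ a, Δ a) * ∏ a, d1 a = ∏ a, Δ a * d1 a := by rw [Finset.prod_mul_distrib]
      _ ≤ ∏ a : Fin n, c v * d2 a :=
          Finset.prod_le_prod (fun a _ => mul_nonneg (hΔ0 a) (hd10 a)) (fun a _ => (hKL a).2)
      _ = c v ^ n * ∏ a, d2 a := by rw [Finset.prod_mul_distrib]; simp
  have hΔP : 0 ≤ ∏ a, Δ a := Finset.prod_nonneg fun a _ => hΔ0 a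
  have hd1P : 0 ≤ ∏ a, d1 a := Finset.prod_nonneg fun a _ => hd10 a
  have hd2P : 0 ≤ ∏ a, d2 a := Finset.prod_nonneg fun a _ => hd20 a
  have hcn : 0 ≤ c v ^ n := pow_nonneg (c.pos v).le n
  have hkn : 0 ≤ kap v (mk N μ) ^ n := pow_nonneg hk0 n
  constructor
  · calc wedgen v x * wedgen v (Fin.append x2 y')
        ≤ wedgen v x * (kap v (mk N μ) ^ n * (wedgen v x2 * ∏ a, d2 a)) := by
          apply mul_le_mul_of_nonneg_left _ hx0
          exact c2a.trans (mul_le_mul_of_nonneg_right hkap2 (mul_nonneg hx20 hd2P))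
      _ ≤ wedgen v x * (kap v (mk N μ) ^ n * (wedgen v x2 * (c v ^ n * ((∏ a, Δ a) * ∏ a, d1 a)))) := by
          apply mul_le_mul_of_nonneg_left _ hx0
          apply mul_le_mul_of_nonneg_left _ hkn
          exact mul_le_mul_of_nonneg_left hP1 hx20
      _ = kap v (mk N μ) ^ n * c v ^ n * ((∏ a, Δ a) * ((wedgen v x * ∏ a, d1 a) * wedgen v x2)) := by
          ring
      _ ≤ kap v (mk N μ) ^ n * c v ^ n * ((∏ a, Δ a) * (wedgen v (Fin.append x y') * wedgen v x2)) := by
          apply mul_le_mul_of_nonneg_left _ (mul_nonneg hkn hcn)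
          apply mul_le_mul_of_nonneg_left _ hΔP
          exact mul_le_mul_of_nonneg_right c1b hx20
  · calc (∏ a, Δ a) * (wedgen v (Fin.append x y') * wedgen v x2)
        ≤ (∏ a, Δ a) * ((kap v (mk N μ) ^ n * (wedgen v x * ∏ a, d1 a)) * wedgen v x2) := by
          apply mul_le_mul_of_nonneg_left _ hΔP
          apply mul_le_mul_of_nonneg_right _ hx20
          exact c1a.trans (mul_le_mul_of_nonneg_right hkap1 (mul_nonneg hx0 hd1P))
      _ = kap v (mk N μ) ^ n * (wedgen v x * wedgen v x2) * ((∏ a, Δ a) * ∏ a, d1 a) := by ring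
      _ ≤ kap v (mk N μ) ^ n * (wedgen v x * wedgen v x2) * (c v ^ n * ∏ a, d2 a) :=
          mul_le_mul_of_nonneg_left hP2 (mul_nonneg hkn (mul_nonneg hx0 hx20))
      _ = kap v (mk N μ) ^ n * c v ^ n * (wedgen v x * (wedgen v x2 * ∏ a, d2 a)) := by ring
      _ ≤ kap v (mk N μ) ^ n * c v ^ n * (wedgen v x * wedgen v (Fin.append x2 y')) := by
          apply mul_le_mul_of_nonneg_left _ (mul_nonneg hkn hcn)
          exact mul_le_mul_of_nonneg_left c2b hx0

/-- **LT** -/
theorem LT (n μ : ℕ) (hμ : BigLevel N n μ) : ∃ c : CF, ∀ v, ∀ (P Q : Fin n → Pl N), (∀ i j, P i ≠ Q j) →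
    ∀ (w : ℕ) (t : Fin w → FN N) (sm sp : Fin n → FN N), w + 2 * n = mk N μ →
      Submodule.span Kb (Set.range t) = LSp (koo N μ - (tdiv P + tdiv Q)) →
      Submodule.span Kb (Set.range (Fin.append t sm)) = LSp (koo N μ - tdiv Q) →
      (∀ a, sp a ∈ LSp (koo N μ - tdiv P)) →
      wedgen v (fun a => crd N μ (t a)) * wedgen v (fun a => crd N μ (Fin.append (Fin.append t sm) sp a)) ≤
        c v * ((∏ i, ∏ j, dl N v (P i) (Q j)) *
          (wedgen v (fun a => crd N μ (Fin.append t sp a)) * wedgen v (fun a => crd N μ (Fin.append t sm a)))) ∧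
      (∏ i, ∏ j, dl N v (P i) (Q j)) *
          (wedgen v (fun a => crd N μ (Fin.append t sp a)) * wedgen v (fun a => crd N μ (Fin.append t sm a))) ≤
        c v * (wedgen v (fun a => crd N μ (t a)) *
          wedgen v (fun a => crd N μ (Fin.append (Fin.append t sm) sp a))) := by
  obtain ⟨c, hc⟩ := LT_adapted (N := N) n μ hμ
  refine ⟨c, fun v P Q hPQ w t sm sp hw ht hsm hsp => ?_⟩
  obtain ⟨y, hy, hU, hA⟩ := exists_adapted hμ P Q hPQ
  obtain ⟨h1, h2⟩ := hc v P Q hPQ w t sm y hw ht hsm hy hU hA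
  set x : Fin w → Fin (mk N μ) → Kb := fun a => crd N μ (t a) with hx
  set x2 : Fin (w + n) → Fin (mk N μ) → Kb := fun a => crd N μ (Fin.append t sm a) with hx2
  set y' : Fin n → Fin (mk N μ) → Kb := fun a => crd N μ (y a) with hy'
  set sp' : Fin n → Fin (mk N μ) → Kb := fun a => crd N μ (sp a) with hsp'
  have e1 : (fun a => crd N μ (Fin.append t y a)) = Fin.append x y' := comp_append _ t y
  have e2 : (fun a => crd N μ (Fin.append (Fin.append t sm) y a)) = Fin.append x2 y' :=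
    comp_append _ (Fin.append t sm) y
  have e3 : (fun a => crd N μ (Fin.append t sp a)) = Fin.append x sp' := comp_append _ t sp
  have e4 : (fun a => crd N μ (Fin.append (Fin.append t sm) sp a)) = Fin.append x2 sp' :=
    comp_append _ (Fin.append t sm) sp
  have e5 : x2 = Fin.append x (fun a => crd N μ (sm a)) := comp_append _ t sm
  rw [e1, e2] at h1 h2
  rw [e3, e4]
  have hPQ0 : (0 : Dv N) ≤ tdiv P + tdiv Q := add_nonneg (tdiv_nonneg P) (tdiv_nonneg Q)
  -- `(t, y)` spans `L(μ∞ - ∑ P)`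
  have hspan : Submodule.span Kb (Set.range (Fin.append x y')) = cS N μ (tdiv P) := by
    have := span_append_chain x y' (fun a => cS N μ (tdiv P + tailDiv Q a))
      (by
        simp only [tailDiv_zero]
        exact (span_crd_eq_cS hPQ0 t ht).symm)
      (fun a => hU a)
    simpa [tailDiv_self] using this
  have hmem : ∀ a, sp' a ∈ Submodule.span Kb (Set.range (Fin.append x y')) := by
    intro a
    rw [hspan]
    exact (crd_mem_cS (LSp_sub_le_Lk μ (tdiv_nonneg P) (hsp a))).mpr (hsp a)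
  choose f hf using fun a => (Submodule.mem_span_range_iff_exists_fun Kb).mp (hmem a)
  set B : Matrix (Fin n) (Fin n) Kb := fun a b => f a (Fin.natAdd w b) with hB
  set C : Matrix (Fin n) (Fin w) Kb := fun a b => f a (Fin.castAdd n b) with hC
  have hdec : ∀ a, sp' a = ∑ b, B a b • y' b + ∑ c, C a c • x c := by
    intro a
    rw [← hf a, Fin.sum_univ_add]
    simp only [Fin.append_left, Fin.append_right]
    rw [add_comm]
  have w1 := wedgen_append_change v x y' sp' B C hdec
  have w2 := wedgen_append_change v x2 y' sp' B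
    (fun a => Fin.append (C a) (fun _ : Fin n => (0 : Kb))) (by
      intro a
      rw [hdec a, Fin.sum_univ_add]
      simp only [Fin.append_left, Fin.append_right, zero_smul, Finset.sum_const_zero, add_zero, e5])
  rw [w1, w2]
  have hB0 : 0 ≤ absv v B.det := (absv v).nonneg _
  constructor
  · calc wedgen v x * (absv v B.det * wedgen v (Fin.append x2 y'))
        = absv v B.det * (wedgen v x * wedgen v (Fin.append x2 y')) := by ring
      _ ≤ absv v B.det * (c v * ((∏ i, ∏ j, dl N v (P i) (Q j)) *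
            (wedgen v (Fin.append x y') * wedgen v x2))) := mul_le_mul_of_nonneg_left h1 hB0
      _ = _ := by ring
  · calc (∏ i, ∏ j, dl N v (P i) (Q j)) * (absv v B.det * wedgen v (Fin.append x y') * wedgen v x2)
        = absv v B.det * ((∏ i, ∏ j, dl N v (P i) (Q j)) *
            (wedgen v (Fin.append x y') * wedgen v x2)) := by ring
      _ ≤ absv v B.det * (c v * (wedgen v x * wedgen v (Fin.append x2 y'))) :=
          mul_le_mul_of_nonneg_left h2 hB0
      _ = _ := by ring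

end Fermat.Agent.S17
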