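import Fermat.Agent.S17.E.Basic

/-!
# S17 / E4 : `h(W_{div0 φ}) = h(φ L_{k'}) = m_{k'} h(φ) + O(1)`

`φ ∈ L_k` rational, `≠ 0`.  `L((k+k')∞ - div0 φ) = φ L_{k'}` (`mem_LSp_add_divf`; `koo_add`), so `j ↦ φ * bas k' j` is a rational basis
(`isRatBasis_mul`).  `U2` compares its wedge norm with `|φ|_v^{m_{k'}}`; take logs and sum (`abs_finsum_sub_le`; supports: `finite_wedgen_ne_one`,
`finite_supn_ne_one`).
-/

set_option autoImplicit false

open AlgebraicCurve ModularCurve IntermediateField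

namespace Fermat.Agent.S17

open FF

variable {N : ℕ} [NeZero N]

/-- `φ L_{k'} = L((k+k')∞ - div0 φ)` -/
theorem MulSpace.mul_mem_iff (k k' : ℕ) {φ : FN N} (h0 : φ ≠ 0) (u : FN N) :
    φ * u ∈ LSp (koo N (k + k') - div0 N k φ) ↔ u ∈ Lk N k' := by
  have h : koo N k' = (koo N (k + k') - div0 N k φ) + divf φ := by
    rw [div0, koo_add]; abel
  rw [Lk, h, mem_LSp_add_divf h0, mul_comm]

theorem isRatBasis_mul (k k' : ℕ) {φ : FN N} (hφ : φ ∈ Lk N k) (h0 : φ ≠ 0) (hr : IsRatF N φ) :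
    IsRatBasis N (k + k') (div0 N k φ) (fun j : Fin (mk N k') => φ * (bas N k' j : FN N)) := by
  have hli : LinearIndependent Kb (fun j : Fin (mk N k') => (bas N k' j : FN N)) :=
    (bas N k').linearIndependent.map' (Submodule.subtype _) (Submodule.ker_subtype _)
  have hsp : Submodule.span Kb (Set.range fun j : Fin (mk N k') => (bas N k' j : FN N)) =
      Lk N k' := by
    have h1 := (bas N k').span_eq
    have h2 := congrArg (Submodule.map (Submodule.subtype (Lk N k'))) h1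
    rw [Submodule.map_span, Submodule.map_top, Submodule.range_subtype, ← Set.range_comp] at h2
    exact h2
  refine ⟨fun j => isRatF_mul hr (bas_isRat N k' j), ?_, ?_⟩
  · exact hli.map' (LinearMap.mulLeft Kb φ)
      (LinearMap.ker_eq_bot.2 (fun a b hab => mul_left_cancel₀ h0 hab))
  · have h3 : (Set.range fun j : Fin (mk N k') => φ * (bas N k' j : FN N)) =
        (LinearMap.mulLeft Kb φ) '' (Set.range fun j : Fin (mk N k') => (bas N k' j : FN N)) := by
      rw [← Set.range_comp]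
      rfl
    rw [h3, ← Submodule.map_span, hsp]
    ext t
    constructor
    · rintro ⟨u, hu, rfl⟩
      exact (MulSpace.mul_mem_iff k k' h0 u).2 hu
    · intro ht
      refine ⟨φ⁻¹ * t, ?_, ?_⟩
      · refine (MulSpace.mul_mem_iff k k' h0 _).1 ?_
        rwa [mul_inv_cancel_left₀ h0]
      · exact mul_inv_cancel_left₀ h0 t

theorem E4 (k k' : ℕ) : ∃ C : ℝ, ∀ φ : FN N, φ ∈ Lk N k → φ ≠ 0 → IsRatF N φ →
    |hW N (k + k') (div0 N k φ) - mk N k' * hsec N k φ| ≤ C := by
  obtain ⟨c, hc⟩ := U2 (N := N) k k'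
  refine ⟨c.tot, fun φ hφ h0 hr => ?_⟩
  have hB := isRatBasis_mul k k' hφ h0 hr
  rw [← hW_eq (div0_nonneg hφ) hB]
  have hmem : ∀ j : Fin (mk N k'), φ * (bas N k' j : FN N) ∈ Lk N (k + k') :=
    fun j => mul_mem_Lk hφ (bas N k' j).2
  have hli : LinearIndependent Kb
      (fun j : Fin (mk N k') => crd N (k + k') (φ * (bas N k' j : FN N))) :=
    (linearIndependent_crd _ hmem).2 hB.li
  have hs : (mk N k' : ℝ) * hsec N k φ =
      ∑ᶠ v : PlQ, (mk N k' : ℝ) * Real.log (nrm N v k φ) := by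
    unfold hsec hvec
    exact mul_finsum _ _
  rw [hs]
  unfold hwedge
  refine abs_finsum_sub_le c _ _ (Siegel.finite_support_log (finite_wedgen_ne_one hli))
    (GlobalA.finite_support_mul_const _ (D3aux.finite_support_log_nrm hφ h0)) (fun v => ?_)
  rw [← Real.log_pow]
  exact D3aux.abs_log_sub_log_le ((wedgen_pos_iff v _).2 hli)
    (pow_pos (D3aux.nrm_pos v hφ h0) _) (c.pos v) (hc v φ hφ).2 (hc v φ hφ).1

end Fermat.Agent.S17
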