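import Fermat.Agent.S17.E.Basic
import Fermat.Agent.S17.C.Northcott

/-!
# S17 / E6 : lower bound for `hdiv` and Northcott

* `exists_CF_one_le_ptn` : `1 = ∑ c_i b_i` in `L_k` (`one_mem_Lk`, `eq_sum_crd`), so for `P ≠ ∞`: `1 = ev_P 1 = ∑ c_i pt_i(P)` (`ev_eq_sum`) and
  `1 ≤ kap * max|c_i| * |pt P|`; for `P = ∞` the vector `pt ∞ ≠ 0` is fixed (`pt_ne_zero`, `finite_supn_ne_one`).
* `hdiv_lower` : sum over `v`.
* `northcott` : `E` rational effective of degree `d`, `hh_{μ₀}(E) ≤ B`.  For every `i` the multiset `{pt_i(P)}_{P ∈ E}` (with multiplicities) is Galois stable (`pt_gal`),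
  of cardinality `d`, and `∑_v ∑_P log max(1,|pt_i(P)|_v) ≤ ∑_v ∑_P log (c_v |pt P|_v) ≤ B + d c.tot`.  `finite_of_stable_multiset` ⇒ finitely many values of
  `pt_i(P)` ⇒ finitely many `pt P` ⇒ finitely many `P` (`pt_injective` with `c = 1`) ⇒ finitely many `E` (`finite_divisors`).
-/

set_option autoImplicit false

open AlgebraicCurve ModularCurve IntermediateField

namespace Fermat.Agent.S17

open FF

variable {N : ℕ} [NeZero N]

theorem exists_CF_one_le_ptn {k : ℕ} (hk : rc Kb (FN N) + 1 ≤ k) : ∃ c : CF, ∀ v, ∀ P : Pl N,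
    1 ≤ c v * ptn N v k P := by
  exact one_le_ptn hk

theorem hdiv_lower {k : ℕ} (hk : rc Kb (FN N) + 1 ≤ k) (d : ℕ) : ∃ C : ℝ, ∀ E : Dv N, 0 ≤ E →
    Divisor.degree E = d → -C ≤ hdiv N k E := by
  obtain ⟨C, hC⟩ := hdiv_ge (N := N) hk d
  exact ⟨C, fun E h0 hd => hC E h0 hd.le⟩

/-- effective divisors of degree `d` supported in a finite set -/
theorem finite_divisors (T : Set (Pl N)) (hT : T.Finite) (d : ℕ) :
    {E : Dv N | 0 ≤ E ∧ Divisor.degree E = d ∧ ∀ P, E P ≠ 0 → P ∈ T}.Finite := by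
  classical
  refine (Finset.finite_toSet (hT.toFinset.finsupp fun _ => Finset.Icc (0 : ℤ) d)).subset ?_
  rintro E ⟨h0, hd, hT'⟩
  rw [Finset.mem_coe, Finset.mem_finsupp_iff]
  refine ⟨fun P hP => ?_, fun P _ => ?_⟩
  · rw [Set.Finite.mem_toFinset]
    exact hT' P (Finsupp.mem_support_iff.1 hP)
  · rw [Finset.mem_Icc]
    exact ⟨h0 P, hd ▸ FF.LBasic.le_degree h0 P⟩

namespace E6aux

/-- the multiset of places of a tuple -/
noncomputable def mset {d : ℕ} (P : Fin d → Pl N) : Multiset (Pl N) := Finset.univ.val.map P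

open Classical in
theorem tdiv_apply_eq_count {d : ℕ} (P : Fin d → Pl N) (R : Pl N) :
    tdiv P R = (Multiset.count R (mset P) : ℤ) := by
  rw [tdiv, Finsupp.finsetSum_apply, mset, Multiset.count_map]
  simp only [Finsupp.single_apply]
  rw [Finset.sum_boole]
  congr 2
  change _ = Multiset.card (Finset.filter (fun a => R = P a) Finset.univ).val
  rw [Finset.card_val]
  congr 1
  ext j
  simp [eq_comm]

theorem mset_eq_of_tdiv_eq {d : ℕ} {P Q : Fin d → Pl N} (h : tdiv P = tdiv Q) : mset P = mset Q := by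
  classical
  ext R
  have h1 := tdiv_apply_eq_count P R
  have h2 := tdiv_apply_eq_count Q R
  rw [h, h2] at h1
  exact_mod_cast h1.symm

theorem gal_smul_tdiv (σ : GQ) {d : ℕ} (P : Fin d → Pl N) :
    gal Kb N σ • tdiv P = tdiv (fun j => gal Kb N σ • P j) := by
  rw [tdiv, tdiv, Finset.smul_sum]
  exact Finset.sum_congr rfl fun j _ => SemilinearAut.smul_single _ _ _

theorem sum_tdiv {d : ℕ} (P : Fin d → Pl N) (g : Pl N → ℝ) :
    ((tdiv P).sum fun R a => (a : ℝ) * g R) = ∑ j, g (P j) := by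
  rw [tdiv, ← Finsupp.sum_finsetSum_index (by simp) (by intro R a b; push_cast; ring)]
  refine Finset.sum_congr rfl fun j _ => ?_
  rw [Finsupp.sum_single_index (by simp)]
  simp

end E6aux

/-- the places occurring in rational effective divisors of bounded degree and height -/
theorem finite_places_of_height_le (d : ℕ) (B : ℝ) :
    {P : Pl N | ∃ E : Dv N, 0 ≤ E ∧ IsRatD N E ∧ Divisor.degree E = d ∧ hdiv N (mu0 N) E ≤ B ∧ E P ≠ 0}.Finite := by
  classical
  have hmu : rc Kb (FN N) + 2 ≤ (mu0 N : ℤ) := rc_add_two_le_mu0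
  have hmu1 : rc Kb (FN N) + 1 ≤ (mu0 N : ℤ) := by omega
  obtain ⟨c, hc⟩ := one_le_ptn (N := N) hmu1
  have hA := finite_of_stable_multiset d (B + (c.npow d).tot)
  set A : Set Kb := {a : Kb | ∃ s : Multiset Kb, a ∈ s ∧ Multiset.card s ≤ d ∧
      (∀ σ : Kb ≃ₐ[ℚ] Kb, s.map σ = s) ∧
      ∑ᶠ v : PlQ, (s.map fun b => Real.log (max 1 (absv v b))).sum ≤ B + (c.npow d).tot} with hAdef
  have hpi : (Set.pi Set.univ fun _ : Fin (mk N (mu0 N)) => A).Finite :=
    Set.Finite.pi fun _ => hA
  refine Set.Finite.of_injOn (f := fun P : Pl N => pt N (mu0 N) P) ?_ ?_ hpi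
  · rintro R ⟨E, h0, hr, hd, hB, hR⟩
    rw [Set.mem_pi]
    intro i _
    obtain ⟨P, rfl⟩ := exists_tdiv_eq h0 hd
    refine ⟨(E6aux.mset P).map fun Q => pt N (mu0 N) Q i, ?_, ?_, ?_, ?_⟩
    · rw [Multiset.mem_map]
      refine ⟨R, ?_, rfl⟩
      rw [E6aux.tdiv_apply_eq_count] at hR
      exact Multiset.count_ne_zero.1 (by exact_mod_cast hR)
    · simp [E6aux.mset]
    · intro σ
      have h1 : E6aux.mset (fun j => gal Kb N σ • P j) = E6aux.mset P :=
        E6aux.mset_eq_of_tdiv_eq (by rw [← E6aux.gal_smul_tdiv, hr σ])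
      rw [Multiset.map_map]
      conv_rhs => rw [← h1]
      rw [E6aux.mset, E6aux.mset, Multiset.map_map, Multiset.map_map]
      refine Multiset.map_congr rfl fun j _ => ?_
      exact (pt_gal σ (mu0 N) (P j) i).symm
    · have hsum : ∀ v : PlQ, (((E6aux.mset P).map fun Q => pt N (mu0 N) Q i).map
          fun b => Real.log (max 1 (absv v b))).sum =
          ∑ j, Real.log (max 1 (absv v (pt N (mu0 N) (P j) i))) := by
        intro v
        rw [E6aux.mset, Multiset.map_map, Multiset.map_map]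
        rfl
      have key := finsum_le_add (c.npow d)
        (fun v => (((E6aux.mset P).map fun Q => pt N (mu0 N) Q i).map
          fun b => Real.log (max 1 (absv v b))).sum)
        (fun v => (tdiv P).sum fun Q a => (a : ℝ) * Real.log (ptn N v (mu0 N) Q))
        (NC.finite_support_sum _) (finite_support_hdiv hmu1 _) (fun v => ?_)
      · refine key.trans ?_
        have : hdiv N (mu0 N) (tdiv P) =
          ∑ᶠ v : PlQ, (tdiv P).sum fun Q a => (a : ℝ) * Real.log (ptn N v (mu0 N) Q) := rfl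
        rw [← this]
        linarith
      · change _ ≤ _ + Real.log (c v ^ d)
        rw [hsum v, E6aux.sum_tdiv, Real.log_pow]
        have hterm : ∀ j, Real.log (max 1 (absv v (pt N (mu0 N) (P j) i))) ≤
            Real.log (ptn N v (mu0 N) (P j)) + Real.log (c v) := by
          intro j
          have hp : 0 < ptn N v (mu0 N) (P j) := ptn_pos hmu1 v (P j)
          rw [← Real.log_mul hp.ne' (c.pos v).ne']
          refine Real.log_le_log (lt_of_lt_of_le one_pos (le_max_left _ _)) (max_le ?_ ?_)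
          · rw [mul_comm]; exact hc v (P j)
          · exact (absv_le_supn v (pt N (mu0 N) (P j)) i).trans
              (le_mul_of_one_le_right hp.le (c.one_le v))
        calc ∑ j, Real.log (max 1 (absv v (pt N (mu0 N) (P j) i)))
            ≤ ∑ j : Fin d, (Real.log (ptn N v (mu0 N) (P j)) + Real.log (c v)) :=
              Finset.sum_le_sum fun j _ => hterm j
          _ = ∑ j, Real.log (ptn N v (mu0 N) (P j)) + d * Real.log (c v) := by
              rw [Finset.sum_add_distrib, Finset.sum_const, Finset.card_univ, Fintype.card_fin,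
                nsmul_eq_mul]
  · intro P _ Q _ hPQ
    exact pt_injective (k := mu0 N) hmu (c := 1) (by rw [one_smul]; exact hPQ)

/-- **E6 (Northcott)** -/
theorem northcott (d : ℕ) (B : ℝ) :
    {E : Dv N | 0 ≤ E ∧ IsRatD N E ∧ Divisor.degree E = d ∧ hdiv N (mu0 N) E ≤ B}.Finite := by
  refine (finite_divisors _ (finite_places_of_height_le (N := N) d B) d).subset ?_
  rintro E ⟨h0, hr, hd, hB⟩
  exact ⟨h0, hd, fun P hP => ⟨E, h0, hr, hd, hB, hP⟩⟩

end Fermat.Agent.S17
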