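import Fermat.Agent.S17.E.Interface
import Fermat.Agent.S17.E.Chain

/-!
# S17 / E5 : Siegel's lemma in `W_E = L(μ∞ - E)`

`E` rational effective of degree `n`, `w = m_μ - n = dim W_E > 0`.  Rational basis `x` of `W_E` (`exists_isRatBasis`), rational coordinates (`exists_rat_crd`),
`siegel` gives `0 ≠ s ∈ W_E` rational with `h(s) ≤ h(W_E)/w + log w + 1` (`hW_eq`).
`E^c := div0 μ s - E ≥ 0` is rational of degree `μ - n`; `mahler` + `hdiv_add`: `μ₀ h(s) ≥ hh_{μ₀}(E) + hh_{μ₀}(E^c) - C`.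
-/

set_option autoImplicit false

open AlgebraicCurve ModularCurve IntermediateField

namespace Fermat.Agent.S17

open FF

variable {N : ℕ} [NeZero N]

namespace SiegelApp

/-- `n < m_μ` -/
theorem lt_mk {n μ : ℕ} (hμ : BigLevel N n μ) : n < mk N μ := by
  rcases Nat.eq_zero_or_pos n with rfl | hn
  · by_contra h
    have h0 : mk N μ = 0 := by omega
    have h1 : crd N μ (1 : FN N) = 0 := by
      funext i
      exact absurd i.2 (by omega)
    exact one_ne_zero ((crd_eq_zero_iff (one_mem_Lk μ)).1 h1)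
  · have h := ell_koo_sub (N := N) hμ (D := koo N (2 * n)) (d := 2 * n) (degree_koo _) le_rfl
    omega

end SiegelApp

/-- Siegel's lemma, function form -/
theorem exists_small_section (n μ : ℕ) (hμ : BigLevel N n μ) : ∃ C : ℝ, ∀ E : Dv N, 0 ≤ E → IsRatD N E →
    Divisor.degree E = n →
    ∃ s ∈ LSp (koo N μ - E), s ≠ 0 ∧ IsRatF N s ∧ ((mk N μ : ℝ) - n) * hsec N μ s ≤ hW N μ E + C := by
  refine ⟨((mk N μ : ℝ) - n) * (Real.log ((mk N μ : ℝ) - n) + 1), ?_⟩
  intro E hE0 hE hdeg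
  have hlt := SiegelApp.lt_mk (N := N) hμ
  have hell := ell_koo_sub (N := N) hμ (D := E) (d := n) hdeg (by omega)
  have hex := exists_isRatBasis (N := N) μ hE
  obtain ⟨w, hw⟩ : ∃ w, w = ell (koo N μ - E) := ⟨_, rfl⟩
  rw [← hw] at hex hell
  obtain ⟨x, hx⟩ := hex
  have hwpos : 0 < w := by omega
  have hwR : ((mk N μ : ℝ) - n) = (w : ℝ) := by
    rw [← hell]; push_cast; ring
  have hxL : ∀ a, x a ∈ Lk N μ := fun a => LSp_sub_le_Lk μ hE0 (hx.mem a)
  choose X hX using fun a => exists_rat_crd (k := μ) (hx.rat a)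
  have hliK : LinearIndependent Kb (fun a => crd N μ (x a)) := (linearIndependent_crd x hxL).2 hx.li
  have hliQ : LinearIndependent ℚ X := by
    rw [Fintype.linearIndependent_iff]
    intro g hg
    have h1 : ∑ a, (g a : Kb) • crd N μ (x a) = 0 := by
      funext i
      have h2 := congrFun hg i
      simp only [Finset.sum_apply, Pi.smul_apply, smul_eq_mul, Pi.zero_apply] at h2 ⊢
      simp only [hX]
      exact_mod_cast h2
    intro a
    have h3 := Fintype.linearIndependent_iff.1 hliK (fun a => (g a : Kb)) h1 a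
    exact_mod_cast h3
  obtain ⟨a, ha0, ha⟩ := siegel hwpos X hliQ
  have hwedge_eq : hwedge (fun b i => (X b i : Kb)) = hW N μ E := by
    rw [← hW_eq hE0 hx]
    congr 1
    funext b
    rw [hX b]
  have hs_crd : crd N μ (∑ b, (a b : Kb) • x b) = fun i => ((∑ b, a b * X b i : ℚ) : Kb) := by
    rw [crd_finset_sum _ _ (fun b _ => Submodule.smul_mem _ _ (hxL b))]
    funext i
    simp only [crd_smul, hX, Finset.sum_apply, Pi.smul_apply, smul_eq_mul]
    push_cast
    rfl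
  refine ⟨∑ b, (a b : Kb) • x b, Submodule.sum_mem _ fun b _ => Submodule.smul_mem _ _ (hx.mem b),
    ?_, isRatF_sum_rat_smul hx.rat a, ?_⟩
  · intro h0
    apply ha0
    funext b
    have h3 := Fintype.linearIndependent_iff.1 hx.li (fun b => (a b : Kb)) h0 b
    exact_mod_cast h3
  · rw [hsec, hs_crd, hwR]
    rw [hwedge_eq] at ha
    have hwR0 : (0 : ℝ) < w := by exact_mod_cast hwpos
    calc (w : ℝ) * hvec (fun i => ((∑ b, a b * X b i : ℚ) : Kb))
        ≤ (w : ℝ) * (hW N μ E / w + Real.log w + 1) := mul_le_mul_of_nonneg_left ha hwR0.le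
      _ = hW N μ E + (w : ℝ) * (Real.log w + 1) := by field_simp; ring

/-- **E5** -/
theorem E5 (n μ : ℕ) (hμ : BigLevel N n μ) : ∃ C : ℝ, ∀ E : Dv N, 0 ≤ E → IsRatD N E →
    Divisor.degree E = n →
    ∃ (Ec : Dv N) (s : FN N), 0 ≤ Ec ∧ IsRatD N Ec ∧ Divisor.degree Ec = (μ : ℤ) - n ∧ s ≠ 0 ∧ IsRatF N s ∧
      divf s = E + Ec - koo N μ ∧
      ((mk N μ : ℝ) - n) * (hdiv N (mu0 N) E + hdiv N (mu0 N) Ec) ≤ mu0 N * hW N μ E + C := by
  obtain ⟨C0, hC0⟩ := exists_small_section (N := N) n μ hμ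
  obtain ⟨C1, hC1⟩ := mahler (N := N) μ
  refine ⟨mu0 N * C0 + ((mk N μ : ℝ) - n) * C1, ?_⟩
  intro E hE0 hE hdeg
  obtain ⟨s, hs, hs0, hsr, hsle⟩ := hC0 E hE0 hE hdeg
  have hlt := SiegelApp.lt_mk (N := N) hμ
  have hw0 : (0 : ℝ) ≤ (mk N μ : ℝ) - n := by
    have : (n : ℝ) < mk N μ := by exact_mod_cast hlt
    linarith
  have hsL : s ∈ Lk N μ := LSp_sub_le_Lk μ hE0 hs
  have hsum : div0 N μ s = E + (div0 N μ s - E) := by abel
  refine ⟨div0 N μ s - E, s, ?_, isRatD_sub (isRatD_div0 hsr μ) hE, ?_, hs0, hsr, ?_, ?_⟩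
  · have h := (mem_LSp_iff_divf hs0).1 hs
    have e : div0 N μ s - E = divf s + (koo N μ - E) := by rw [div0]; abel
    rw [e]; exact h
  · rw [map_sub, degree_div0, hdeg]
  · rw [div0]; abel
  · have hk : rc Kb (FN N) + 1 ≤ (mu0 N : ℤ) := by
      have := rc_add_two_le_mu0 (N := N); omega
    have h1 := hC1 s hsL hs0 hsr
    rw [hsum, hdiv_add hk] at h1
    have h2 := (abs_le.1 h1).2
    have hmu : (0 : ℝ) ≤ mu0 N := Nat.cast_nonneg _
    calc ((mk N μ : ℝ) - n) * (hdiv N (mu0 N) E + hdiv N (mu0 N) (div0 N μ s - E))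
        ≤ ((mk N μ : ℝ) - n) * (mu0 N * hsec N μ s + C1) :=
          mul_le_mul_of_nonneg_left (by linarith) hw0
      _ = mu0 N * (((mk N μ : ℝ) - n) * hsec N μ s) + ((mk N μ : ℝ) - n) * C1 := by ring
      _ ≤ mu0 N * (hW N μ E + C0) + ((mk N μ : ℝ) - n) * C1 := by
          have := mul_le_mul_of_nonneg_left hsle hmu
          linarith
      _ = mu0 N * hW N μ E + (mu0 N * C0 + ((mk N μ : ℝ) - n) * C1) := by ring

end Fermat.Agent.S17
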