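import Fermat.Agent.S17.E.Global
import Fermat.Agent.S17.E.MulSpace
import Fermat.Agent.S17.E.SiegelApp
import Fermat.Agent.S17.E.Northcott

/-!
# S17 / Part E : the output ("arithmetic Hodge index")

`E₊, E₋` rational effective of degree `n`, disjoint, `E₊ + E₋ = div0 φ`, `φ ∈ L_{2n}` rational.  With `m = m_μ`, `hh = hdiv μ₀`:
* `GT` : `(E₊.E₋) ≥ h(W_{E₊}) + h(W_{E₋}) - h(W_{E₊+E₋}) - C`;
* `E4` (`k = 2n`, `k' = μ - 2n`, `m_{k'} = m - 2n` by `mk_eq`) + `mahler` : `μ₀ h(W_{E₊+E₋}) = (m - 2n) μ₀ h(φ) + O(1) = (m-2n)(hh E₊ + hh E₋) + O(1)`;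
* `E5` for `E₊` and `E₋` : `μ₀ h(W_{E±}) ≥ (m-n)(hh E± + hh E±^c) - C`;
* `hdiv_lower` for `E₋^c`.
Sum: `μ₀ (E₊.E₋) - n (hh E₊ + hh E₋) ≥ (m-n) hh(E₊^c) - C`.
-/

set_option autoImplicit false

open AlgebraicCurve ModularCurve IntermediateField

namespace Fermat.Agent.S17

open FF

variable {N : ℕ} [NeZero N]

/-- numerical consequences of `BigLevel` -/
theorem bigLevel_aux {n μ : ℕ} (hμ : BigLevel N n μ) :
    2 * n ≤ μ ∧ rc Kb (FN N) ≤ ((μ - 2 * n : ℕ) : ℤ) ∧ rc Kb (FN N) ≤ (μ : ℤ) ∧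
      rc Kb (FN N) + 1 ≤ (mu0 N : ℤ) := by
  unfold BigLevel at hμ
  have h0 : 0 ≤ rc Kb (FN N) := rc_nonneg
  have hr : ((rc Kb (FN N)).toNat : ℤ) = rc Kb (FN N) := Int.toNat_of_nonneg h0
  have hm : mu0 N = (rc Kb (FN N)).toNat + 2 := rfl
  have h2 : 2 * n + (rc Kb (FN N)).toNat ≤ μ := by
    have : (2 * n + 1) * 2 ≤ (2 * n + 1) * mu0 N := Nat.mul_le_mul_left _ (by omega)
    omega
  refine ⟨by omega, ?_, ?_, ?_⟩
  · rw [← hr]; exact_mod_cast (by omega : (rc Kb (FN N)).toNat ≤ μ - 2 * n)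
  · rw [← hr]; exact_mod_cast (by omega : (rc Kb (FN N)).toNat ≤ μ)
  · rw [← hr, hm]; push_cast; omega

/-- `m_{μ - 2n} = m_μ - 2n` -/
theorem mk_sub_of_bigLevel {n μ : ℕ} (hμ : BigLevel N n μ) :
    mk N μ = mk N (μ - 2 * n) + 2 * n := by
  obtain ⟨h1, h2, h3, -⟩ := bigLevel_aux hμ
  have e1 := mk_eq (N := N) h2
  have e2 := mk_eq (N := N) h3
  have : ((μ - 2 * n : ℕ) : ℤ) = (μ : ℤ) - 2 * n := by push_cast [Nat.cast_sub h1]; ring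
  omega

/-- `m_μ - n > 0` -/
theorem lt_mk_of_bigLevel {n μ : ℕ} (hμ : BigLevel N n μ) : n < mk N μ := by
  have := mk_sub_of_bigLevel hμ
  have := U12.mk_pos (N := N) (μ - 2 * n)
  omega

/-- **Output of Part E (positivity).** -/
theorem positivity (n μ : ℕ) (hμ : BigLevel N n μ) : ∃ C : ℝ,
    ∀ (Ep Em : Dv N) (φ : FN N), 0 ≤ Ep → 0 ≤ Em → IsRatD N Ep → IsRatD N Em →
      Divisor.degree Ep = n → Divisor.degree Em = n → (∀ P, Ep P = 0 ∨ Em P = 0) →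
      φ ∈ Lk N (2 * n) → φ ≠ 0 → IsRatF N φ → div0 N (2 * n) φ = Ep + Em →
      ∃ (Ec : Dv N) (s : FN N), 0 ≤ Ec ∧ IsRatD N Ec ∧ Divisor.degree Ec = (μ : ℤ) - n ∧ s ≠ 0 ∧ IsRatF N s ∧
        divf s = Ep + Ec - koo N μ ∧
        ((mk N μ : ℝ) - n) * hdiv N (mu0 N) Ec - C ≤
          mu0 N * gpair N Ep Em - n * (hdiv N (mu0 N) Ep + hdiv N (mu0 N) Em) := by
  obtain ⟨h2n, -, -, hmu0⟩ := bigLevel_aux hμ
  obtain ⟨CG, hG⟩ := GT n μ hμ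
  obtain ⟨C4, h4⟩ := E4 (N := N) (2 * n) (μ - 2 * n)
  obtain ⟨CM, hM⟩ := mahler (N := N) (2 * n)
  obtain ⟨C5, h5⟩ := E5 n μ hμ
  obtain ⟨CL, hL⟩ := hdiv_lower (N := N) hmu0 (μ - n)
  have hmk := mk_sub_of_bigLevel hμ
  have hlt := lt_mk_of_bigLevel hμ
  have hmkR : (mk N (μ - 2 * n) : ℝ) = (mk N μ : ℝ) - 2 * n := by
    have : (mk N μ : ℝ) = (mk N (μ - 2 * n) : ℝ) + 2 * n := by exact_mod_cast hmk
    linarith
  have hmn : (0 : ℝ) ≤ (mk N μ : ℝ) - n := by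
    have : (n : ℝ) < mk N μ := by exact_mod_cast hlt
    linarith
  have hm2n : (0 : ℝ) ≤ (mk N μ : ℝ) - 2 * n := by
    rw [← hmkR]; positivity
  have hmu0R : (0 : ℝ) ≤ (mu0 N : ℝ) := by positivity
  refine ⟨2 * C5 + mu0 N * (CG + C4) + ((mk N μ : ℝ) - 2 * n) * CM + ((mk N μ : ℝ) - n) * CL, ?_⟩
  intro Ep Em φ hp hm rp rm dp dm hdisj hφ hφ0 hφr hdv
  obtain ⟨Ec, s, hc0, hcr, hcd, hs0, hsr, hsdiv, hE5p⟩ := h5 Ep hp rp dp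
  obtain ⟨Ec', s', hc0', -, hcd', -, -, -, hE5m⟩ := h5 Em hm rm dm
  refine ⟨Ec, s, hc0, hcr, hcd, hs0, hsr, hsdiv, ?_⟩
  have hGT := hG Ep Em hp hm rp rm dp dm hdisj
  have hE4 := h4 φ hφ hφ0 hφr
  have hMa := hM φ hφ hφ0 hφr
  rw [Nat.add_sub_cancel' h2n, hdv, hmkR] at hE4
  rw [hdv, hdiv_add hmu0] at hMa
  have hLo : -CL ≤ hdiv N (mu0 N) Ec' := by
    refine hL Ec' hc0' ?_
    rw [hcd']
    have : n ≤ μ := by omega
    push_cast [Nat.cast_sub this]; ring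
  rw [abs_le] at hGT hE4 hMa
  set a := hdiv N (mu0 N) Ep
  set b := hdiv N (mu0 N) Em
  set c := hdiv N (mu0 N) Ec
  set c' := hdiv N (mu0 N) Ec'
  set M : ℝ := (mk N μ : ℝ)
  set u : ℝ := (mu0 N : ℝ)
  set hs := hsec N (2 * n) φ
  -- `u * hW(Ep+Em) ≤ (M - 2n) (a + b + CM) + u C4`
  have k1 : u * hW N μ (Ep + Em) ≤ (M - 2 * n) * (u * hs) + u * C4 := by
    have := mul_le_mul_of_nonneg_left hE4.2 hmu0R
    nlinarith
  have k2 : (M - 2 * n) * (u * hs) ≤ (M - 2 * n) * (a + b + CM) := by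
    refine mul_le_mul_of_nonneg_left ?_ hm2n
    linarith [hMa.1]
  have k3 : u * (hW N μ Ep + hW N μ Em - hW N μ (Ep + Em) - CG) ≤ u * gpair N Ep Em := by
    refine mul_le_mul_of_nonneg_left ?_ hmu0R
    linarith [hGT.1]
  have k4 : (M - n) * (-CL) ≤ (M - n) * c' := mul_le_mul_of_nonneg_left hLo hmn
  nlinarith [hE5p, hE5m, k1, k2, k3, k4]

end Fermat.Agent.S17
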