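import Fermat.Agent.S17.E.Main

/-! # S17 / assembly of Parts D and E : `qh` is bounded below and has the Northcott property

Fix `n := n0 N`, `μ := (2 n + 1) μ₀ + rc.toNat` (so `BigLevel N n μ` holds by `le_refl`), `a := m_μ - n > 0` (`lt_mk_of_bigLevel`).

`qh_key`.  Let `x : MW N`.  `exists_rat_effective` (for `x`, `T = {∞}`) gives `E₊`; `exists_rat_effective` (for `-x`, `T = {∞} ∪ supp E₊`) gives `E₋`.
`E₊ + E₋ - 2n∞` is rational of class `x - x = 0`, hence principal, `= div φ` with `φ` rational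
(`exists_rat_of_isPrincipal`), `φ ≠ 0`, `φ ∈ L_{2n}`, `div0 (2n) φ = E₊ + E₋`.
* `D6` : `|qh x - ((E₊.E₋) - hh_n E₊ - hh_n E₋)| ≤ C₁`;
* `hdiv_level` (`k = n`, `k' = μ₀`, `e = n`) : `|μ₀ hh_n E± - n hh_{μ₀} E±| ≤ C₂`;
* `positivity` : `a hh_{μ₀}(E^c) - C₃ ≤ μ₀ (E₊.E₋) - n (hh_{μ₀} E₊ + hh_{μ₀} E₋)`, `div s = E₊ + E^c - μ∞`.
So `a hh_{μ₀}(E^c) - C ≤ μ₀ qh x`, and `x = [E₊ - n∞] = [(μ - n)∞ - E^c]`.
`qh_bounded_below` : `hdiv_lower`.   `qh_northcott` : `northcott (μ - n)`; `x` is determined by `E^c`.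
-/

set_option autoImplicit false
set_option linter.unusedSectionVars false

open AlgebraicCurve ModularCurve IntermediateField

namespace Fermat.Agent.S17

open FF

variable {N : ℕ} [NeZero N]

theorem rc_add_one_le_mu0 : rc Kb (FN N) + 1 ≤ (mu0 N : ℤ) := by
  have h2 : rc Kb (FN N) ≤ ((rc Kb (FN N)).toNat : ℤ) := Int.self_le_toNat _
  unfold mu0
  push_cast
  omega

theorem qh_key : ∃ (d : ℕ) (a C : ℝ), 0 < a ∧ ∀ x : MW N, ∃ Ec : Dv N, 0 ≤ Ec ∧ IsRatD N Ec ∧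
    Divisor.degree Ec = d ∧ (∃ h, cls N (koo N d - Ec) h = (x : JZero N)) ∧
    a * hdiv N (mu0 N) Ec - C ≤ qh x := by
  classical
  set n := n0 N with hn
  set μ := (2 * n + 1) * mu0 N + (rc Kb (FN N)).toNat with hμdef
  have hμ : BigLevel N n μ := le_refl _
  have hmu0 : 2 ≤ mu0 N := by unfold mu0; omega
  have hnμ : n ≤ μ := by
    rw [hμdef]; nlinarith
  obtain ⟨C1, hC1⟩ := D6 (N := N) (le_refl n)
  obtain ⟨C2, hC2⟩ := hdiv_level (N := N) (D6aux.rc_le (le_refl n)) rc_add_one_le_mu0 n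
  obtain ⟨C3, hC3⟩ := positivity (N := N) n μ hμ
  have hlt := lt_mk_of_bigLevel hμ
  have hm0 : (0 : ℝ) < mu0 N := by exact_mod_cast (by omega : 0 < mu0 N)
  have ha : (0 : ℝ) < (mk N μ : ℝ) - n := by
    have : (n : ℝ) < mk N μ := by exact_mod_cast hlt
    linarith
  refine ⟨μ - n, ((mk N μ : ℝ) - n) / mu0 N, (C3 + 2 * C2) / mu0 N + C1, div_pos ha hm0, fun x => ?_⟩
  obtain ⟨Ep, hp0, hpr, hpd, hpT, hp, hcp⟩ := exists_rat_effective x.2 (le_refl n) {oo N}
  obtain ⟨Em, hm0', hmr, hmd, hmT, hm, hcm⟩ :=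
    exists_rat_effective (neg_mem x.2) (le_refl n) ({oo N} ∪ Ep.support)
  rw [Finset.disjoint_union_right] at hmT
  have hpoo : Ep (oo N) = 0 := by
    by_contra h
    exact (Finset.disjoint_left.mp hpT (Finsupp.mem_support_iff.mpr h)) (Finset.mem_singleton_self _)
  have hmoo : Em (oo N) = 0 := by
    by_contra h
    exact (Finset.disjoint_left.mp hmT.1 (Finsupp.mem_support_iff.mpr h)) (Finset.mem_singleton_self _)
  have hdisj : Disjoint Ep.support Em.support := hmT.2.symm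
  -- the function φ
  have hk2 : koo N (2 * n) = koo N n + koo N n := by rw [two_mul, koo_add]
  have hD0 : Divisor.degree (Ep + Em - koo N (2 * n)) = 0 := by
    rw [map_sub, map_add, hpd, hmd, degree_koo]; push_cast; ring
  have hprin : Divisor.IsPrincipal (Ep + Em - koo N (2 * n)) := by
    have h1 : cls N (Ep + Em - koo N (2 * n)) hD0 = cls N 0 (map_zero _) := by
      have e : Ep + Em - koo N (2 * n) = (Ep - koo N n) + (Em - koo N n) := by rw [hk2]; abel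
      rw [Pairing.cls_congr e hD0 (by rw [← e, hD0]), Pairing.cls_add hp hm, hcp, hcm,
        Pairing.cls_zero]
      abel
    have := (cls_eq_cls_iff hD0 (map_zero _)).mp h1
    rwa [LinEq, sub_zero] at this
  obtain ⟨φ, hφ0, hφr, hφ⟩ := exists_rat_of_isPrincipal
    (Pairing.isRatD_sub (Pairing.isRatD_add hpr hmr) (koo_isRat N (2 * n))) hprin
  have hdiv0 : div0 N (2 * n) φ = Ep + Em := by rw [div0, ← hφ]; abel
  have hφL : φ ∈ Lk N (2 * n) := by
    rw [Lk, mem_LSp_iff_divf hφ0]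
    have : divf φ + koo N (2 * n) = Ep + Em := hdiv0
    rw [this]
    exact add_nonneg hp0 hm0'
  obtain ⟨Ec, s, hc0, hcr, hcd, hs0, hsr, hs, hpos⟩ := hC3 Ep Em φ hp0 hm0' hpr hmr hpd hmd
    (fun P => by
      by_cases h : Ep P = 0
      · exact Or.inl h
      · right
        by_contra h'
        exact Finset.disjoint_left.mp hdisj (Finsupp.mem_support_iff.mpr h)
          (Finsupp.mem_support_iff.mpr h')) hφL hφ0 hφr hdiv0
  have hcd' : Divisor.degree Ec = ((μ - n : ℕ) : ℤ) := by rw [hcd]; omega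
  have hdeg : Divisor.degree (koo N (μ - n) - Ec) = 0 := by
    rw [map_sub, degree_koo, hcd', sub_self]
  refine ⟨Ec, hc0, hcr, hcd', ⟨hdeg, ?_⟩, ?_⟩
  · rw [← hcp, cls_eq_cls_iff hdeg hp, LinEq, isPrincipal_iff]
    refine ⟨s⁻¹, inv_ne_zero hs0, ?_⟩
    rw [divf_inv, hs]
    have : koo N μ = koo N (μ - n) + koo N n := by rw [← koo_add]; congr 1; omega
    rw [this]; abel
  · have h1 := hC1 x Ep Em hp0 hm0' hpr hmr hpd hmd hdisj hpoo hmoo ⟨hp, hcp⟩ ⟨hm, hcm⟩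
    have h2 := hC2 Ep hp0 hpd.le
    have h3 := hC2 Em hm0' hmd.le
    rw [abs_le] at h1 h2 h3
    rw [div_mul_eq_mul_div, div_add' _ _ _ hm0.ne', div_sub_div_same, div_le_iff₀ hm0]
    nlinarith [h1.1, h1.2, h2.1, h2.2, h3.1, h3.2, hpos]

/-- lower bound and Northcott for `qh` -/
theorem qh_bounded_below : ∃ C : ℝ, ∀ x : MW N, -C ≤ qh x := by
  obtain ⟨d, a, C, ha, h⟩ := qh_key (N := N)
  obtain ⟨C', hC'⟩ := hdiv_lower (N := N) rc_add_one_le_mu0 d
  refine ⟨a * C' + C, fun x => ?_⟩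
  obtain ⟨Ec, h0, -, hd, -, hle⟩ := h x
  have := hC' Ec h0 hd
  nlinarith

theorem qh_northcott (B : ℝ) : {x : MW N | qh x ≤ B}.Finite := by
  classical
  obtain ⟨d, a, C, ha, h⟩ := qh_key (N := N)
  choose Ec h0 hr hd hcls hle using h
  have hfin := northcott (N := N) d ((B + C) / a)
  refine Set.Finite.of_finite_image (f := Ec) (hfin.subset ?_) ?_
  · rintro _ ⟨x, hx, rfl⟩
    refine ⟨h0 x, hr x, hd x, ?_⟩
    rw [le_div_iff₀ ha]
    have := hle x
    have hx' : qh x ≤ B := hx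
    linarith
  · intro x _ y _ hxy
    obtain ⟨h1, h2⟩ := hcls x
    obtain ⟨h3, h4⟩ := hcls y
    apply Subtype.ext
    rw [← h2, ← h4]
    exact Pairing.cls_congr (by rw [show Ec x = Ec y from hxy]) _ _

end Fermat.Agent.S17
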